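/-
GATE-P / S56 [P-FLAT](iv), node S56-FLAT-DVRINST part 1 (helper26).
**Elements of the decomposition group of a valuation subring `A` of `ℚ̄` are isometries**:
`A.valuation (σ x) = A.valuation x` for `σ ∈ A.decompositionSubgroup ℚ`
(no discreteness is used: some power of `σ` fixes `x`, and `σ` preserves the order of values).
-/
import Mathlib
import Fermat.Agent.GL.Local.InertiaField

set_option autoImplicit false

open scoped Pointwise
open Fermat.Agent.Common_helper32 Fermat.Agent.GL.Local.InertiaField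

namespace Fermat.Agent.GP.Flat.DvrInst

variable (A : ValuationSubring Qb)

/-- membership in the decomposition group, elementwise. -/
theorem mem_decomp_iff (σ : GQ) :
    σ ∈ A.decompositionSubgroup ℚ ↔ ∀ x : Qb, σ x ∈ A ↔ x ∈ A := by
  constructor
  · intro hσ x
    have h : σ • A = A := hσ
    constructor
    · intro hx
      rw [← h, ValuationSubring.mem_pointwise_smul_iff_inv_smul_mem] at hx
      have h2 : σ⁻¹ • σ x = x := by
        show σ⁻¹ (σ x) = x
        simp
      rwa [h2] at hx
    · intro hx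
      rw [← h, ValuationSubring.mem_pointwise_smul_iff_inv_smul_mem]
      have h2 : σ⁻¹ • σ x = x := by
        show σ⁻¹ (σ x) = x
        simp
      rwa [h2]
  · intro h
    show σ • A = A
    ext x
    rw [ValuationSubring.mem_pointwise_smul_iff_inv_smul_mem]
    have h3 := h (σ⁻¹ • x)
    have h4 : σ (σ⁻¹ • x) = x := by
      show σ (σ⁻¹ x) = x
      simp
    rw [h4] at h3
    exact h3.symm

variable {A}

theorem apply_mem_iff {σ : GQ} (hσ : σ ∈ A.decompositionSubgroup ℚ) (x : Qb) :
    σ x ∈ A ↔ x ∈ A := (mem_decomp_iff A σ).mp hσ x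

theorem inertia_le_decomp : A.inertiaSubgroupIn ℚ ≤ A.decompositionSubgroup ℚ := by
  intro σ hσ
  exact (mem_decomp_iff A σ).mpr ((mem_inertiaSubgroupIn_iff_forall A σ).mp hσ).1

/-- the decomposition group preserves the order of values. -/
theorem valuation_apply_le_iff {σ : GQ} (hσ : σ ∈ A.decompositionSubgroup ℚ) (a b : Qb) :
    A.valuation (σ a) ≤ A.valuation (σ b) ↔ A.valuation a ≤ A.valuation b := by
  by_cases hb : b = 0
  · subst hb
    rw [map_zero, map_zero]
    simp only [le_zero_iff, map_eq_zero]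
  · have hσb : σ b ≠ 0 := (map_ne_zero σ).mpr hb
    have hvb : A.valuation b ≠ 0 := (Valuation.ne_zero_iff _).mpr hb
    have hvσb : A.valuation (σ b) ≠ 0 := (Valuation.ne_zero_iff _).mpr hσb
    have h1 : A.valuation a ≤ A.valuation b ↔ a / b ∈ A := by
      rw [← A.valuation_le_one_iff, map_div₀, div_le_one₀ (zero_lt_iff.mpr hvb)]
    have h2 : A.valuation (σ a) ≤ A.valuation (σ b) ↔ σ a / σ b ∈ A := by
      rw [← A.valuation_le_one_iff, map_div₀, div_le_one₀ (zero_lt_iff.mpr hvσb)]
    rw [h1, h2, ← map_div₀]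
    exact apply_mem_iff hσ _

theorem valuation_apply_lt_iff {σ : GQ} (hσ : σ ∈ A.decompositionSubgroup ℚ) (a b : Qb) :
    A.valuation (σ a) < A.valuation (σ b) ↔ A.valuation a < A.valuation b := by
  rw [← not_le, ← not_le, valuation_apply_le_iff hσ]

/-- some positive power of any `σ : G_ℚ` fixes a given `x : ℚ̄`. -/
theorem exists_pow_apply_eq (σ : GQ) (x : Qb) : ∃ n : ℕ, 0 < n ∧ (σ ^ n) x = x := by
  obtain ⟨H, hn, hopen, hH⟩ := exists_open_normal_fixing x
  have hfin : Finite (GQ ⧸ H) := Subgroup.quotient_finite_of_isOpen H hopen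
  have hfi : H.FiniteIndex := Subgroup.finiteIndex_of_finite_quotient
  obtain ⟨n, hn0, -, hmem⟩ := Subgroup.exists_pow_mem_of_index_ne_zero hfi.index_ne_zero σ
  exact ⟨n, hn0, hH _ hmem⟩

private theorem valuation_pow_apply_lt {σ : GQ} (hσ : σ ∈ A.decompositionSubgroup ℚ) {x : Qb}
    (h : A.valuation (σ x) < A.valuation x) (n : ℕ) :
    A.valuation ((σ ^ (n + 1)) x) < A.valuation x := by
  induction n with
  | zero => simpa using h
  | succ n ih =>
    have h1 : (σ ^ (n + 1 + 1)) x = σ ((σ ^ (n + 1)) x) := by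
      rw [pow_succ' σ (n + 1)]
      rfl
    rw [h1]
    exact lt_trans ((valuation_apply_lt_iff hσ _ _).mpr ih) h

private theorem valuation_lt_pow_apply {σ : GQ} (hσ : σ ∈ A.decompositionSubgroup ℚ) {x : Qb}
    (h : A.valuation x < A.valuation (σ x)) (n : ℕ) :
    A.valuation x < A.valuation ((σ ^ (n + 1)) x) := by
  induction n with
  | zero => simpa using h
  | succ n ih =>
    have h1 : (σ ^ (n + 1 + 1)) x = σ ((σ ^ (n + 1)) x) := by
      rw [pow_succ' σ (n + 1)]
      rfl
    rw [h1]
    exact lt_trans h ((valuation_apply_lt_iff hσ _ _).mpr ih)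

/-- **the decomposition group acts by isometries.** -/
theorem valuation_apply_eq {σ : GQ} (hσ : σ ∈ A.decompositionSubgroup ℚ) (x : Qb) :
    A.valuation (σ x) = A.valuation x := by
  obtain ⟨n, hn0, hn⟩ := exists_pow_apply_eq σ x
  obtain ⟨m, rfl⟩ : ∃ m, n = m + 1 := ⟨n - 1, by omega⟩
  rcases lt_trichotomy (A.valuation (σ x)) (A.valuation x) with h | h | h
  · have := valuation_pow_apply_lt hσ h m
    rw [hn] at this
    exact absurd this (lt_irrefl _)
  · exact h
  · have := valuation_lt_pow_apply hσ h m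
    rw [hn] at this
    exact absurd this (lt_irrefl _)

theorem apply_mem_nonunits_iff {σ : GQ} (hσ : σ ∈ A.decompositionSubgroup ℚ) (x : Qb) :
    σ x ∈ A.nonunits ↔ x ∈ A.nonunits := by
  rw [A.mem_nonunits_iff, A.mem_nonunits_iff, valuation_apply_eq hσ]

end Fermat.Agent.GP.Flat.DvrInst
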