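/-
GATE-P / S56 [P-FLAT](iv), node S56-FLAT-DVRINST part 2 (helper26).
The henselian local field `L = ℚ̄^{D_A ∩ N}` (`N` a normal subgroup of `G_ℚ`, in practice open: the
kernel of the action on the points of a finite flat group scheme), its valuation ring `O = A ∩ L`,
the finite inertia quotient `G = I_A N / N` and its action on `L` and `O`.
-/
import Mathlib
import Fermat.Agent.GL.Local.ComapDVR
import Fermat.Agent.GP.Flat.DvrInst.Isometry

set_option autoImplicit false

open scoped Pointwise
open Fermat.Agent.Common_helper32 Fermat.Agent.GL.Local.InertiaField Fermat.Agent.GL.Local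

namespace Fermat.Agent.GP.Flat.DvrInst

variable (A : ValuationSubring Qb) (N : Subgroup GQ)

/-- the local field `L = ℚ̄^{D_A ∩ N}` (`= ℚ̄^N · ℚ^h`). -/
noncomputable def locField : IntermediateField ℚ Qb :=
  IntermediateField.fixedField (A.decompositionSubgroup ℚ ⊓ N)

theorem mem_locField_iff (x : Qb) :
    x ∈ locField A N ↔ ∀ σ : GQ, σ ∈ A.decompositionSubgroup ℚ → σ ∈ N → σ x = x := by
  constructor
  · intro hx σ h1 h2
    exact hx ⟨σ, h1, h2⟩
  · intro hx σ
    exact hx σ.1 σ.2.1 σ.2.2

/-- the valuation ring `O = A ∩ L`. -/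
noncomputable abbrev locRing : ValuationSubring (locField A N) := ComapDVR.sub A (L := locField A N)

theorem mem_locRing_iff (x : locField A N) : x ∈ locRing A N ↔ (x : Qb) ∈ A := Iff.rfl

variable [hN : N.Normal]

/-- the decomposition group acts on `L`. -/
theorem apply_mem_locField {σ : GQ} (hσ : σ ∈ A.decompositionSubgroup ℚ) {x : Qb}
    (hx : x ∈ locField A N) : σ x ∈ locField A N := by
  rw [mem_locField_iff] at hx ⊢
  intro ρ h1 h2
  have h3 : σ⁻¹ * ρ * σ ∈ A.decompositionSubgroup ℚ :=
    Subgroup.mul_mem _ (Subgroup.mul_mem _ (Subgroup.inv_mem _ hσ) h1) hσ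
  have h4 : σ⁻¹ * ρ * σ ∈ N := by
    have := hN.conj_mem ρ h2 σ⁻¹
    simpa using this
  have h5 : (σ⁻¹ * ρ * σ) x = x := hx _ h3 h4
  have h6 : σ ((σ⁻¹ * ρ * σ) x) = ρ (σ x) := by
    show σ (σ⁻¹ (ρ (σ x))) = ρ (σ x)
    simp
  rw [← h6, h5]

/-- the inertia quotient `G = I_A N / N`, a subgroup of `G_ℚ / N`. -/
noncomputable def inertiaQuot : Subgroup (GQ ⧸ N) := (A.inertiaSubgroupIn ℚ).map (QuotientGroup.mk' N)

theorem finite_inertiaQuot (hopen : IsOpen (N : Set GQ)) : Finite (inertiaQuot A N) := by
  have : Finite (GQ ⧸ N) := Subgroup.quotient_finite_of_isOpen N hopen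
  infer_instance

theorem exists_lift (g : inertiaQuot A N) :
    ∃ σ : GQ, σ ∈ A.inertiaSubgroupIn ℚ ∧ (QuotientGroup.mk' N σ) = g.1 :=
  Subgroup.mem_map.mp g.2

/-- a lift of `g ∈ G` to the inertia group. -/
noncomputable def lift (g : inertiaQuot A N) : GQ := Classical.choose (exists_lift A N g)

theorem lift_mem (g : inertiaQuot A N) : lift A N g ∈ A.inertiaSubgroupIn ℚ :=
  (Classical.choose_spec (exists_lift A N g)).1

theorem mk_lift (g : inertiaQuot A N) : QuotientGroup.mk' N (lift A N g) = g.1 :=
  (Classical.choose_spec (exists_lift A N g)).2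

theorem lift_mem_decomp (g : inertiaQuot A N) : lift A N g ∈ A.decompositionSubgroup ℚ :=
  inertia_le_decomp (lift_mem A N g)

/-- two elements of the decomposition group with the same image in `G_ℚ / N` agree on `L`. -/
theorem apply_eq_of_mk_eq {σ τ : GQ} (hσ : σ ∈ A.decompositionSubgroup ℚ)
    (hτ : τ ∈ A.decompositionSubgroup ℚ)
    (h : QuotientGroup.mk' N σ = QuotientGroup.mk' N τ) {x : Qb} (hx : x ∈ locField A N) :
    σ x = τ x := by
  have h1 : τ⁻¹ * σ ∈ N := by
    have := (QuotientGroup.eq (s := N) (a := τ) (b := σ)).mp h.symm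
    exact this
  have h2 : τ⁻¹ * σ ∈ A.decompositionSubgroup ℚ :=
    Subgroup.mul_mem _ (Subgroup.inv_mem _ hτ) hσ
  have h3 : (τ⁻¹ * σ) x = x := (mem_locField_iff A N x).mp hx _ h2 h1
  have h4 : τ ((τ⁻¹ * σ) x) = σ x := by
    show τ (τ⁻¹ (σ x)) = σ x
    simp
  rw [← h4, h3]

noncomputable instance smulLocField : SMul (inertiaQuot A N) (locField A N) where
  smul g x := ⟨lift A N g (x : Qb), apply_mem_locField A N (lift_mem_decomp A N g) x.2⟩

theorem coe_smul_def (g : inertiaQuot A N) (x : locField A N) :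
    ((g • x : locField A N) : Qb) = lift A N g (x : Qb) := rfl

/-- the action of `G` on `L` is induced by any lift to the decomposition group. -/
theorem coe_smul {σ : GQ} (hσ : σ ∈ A.decompositionSubgroup ℚ) (g : inertiaQuot A N)
    (hg : QuotientGroup.mk' N σ = g.1) (x : locField A N) :
    ((g • x : locField A N) : Qb) = σ (x : Qb) := by
  rw [coe_smul_def]
  exact apply_eq_of_mk_eq A N (lift_mem_decomp A N g) hσ ((mk_lift A N g).trans hg.symm) x.2

/-- the class of an element of the inertia group in `G`. -/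
noncomputable def mkI (σ : GQ) (hσ : σ ∈ A.inertiaSubgroupIn ℚ) : inertiaQuot A N :=
  ⟨QuotientGroup.mk' N σ, Subgroup.mem_map_of_mem _ hσ⟩

theorem mkI_surjective (g : inertiaQuot A N) :
    ∃ (σ : GQ) (hσ : σ ∈ A.inertiaSubgroupIn ℚ), mkI A N σ hσ = g :=
  ⟨lift A N g, lift_mem A N g, Subtype.ext (mk_lift A N g)⟩

theorem coe_mkI_smul (σ : GQ) (hσ : σ ∈ A.inertiaSubgroupIn ℚ) (x : locField A N) :
    ((mkI A N σ hσ • x : locField A N) : Qb) = σ (x : Qb) :=
  coe_smul A N (inertia_le_decomp hσ) _ rfl x

noncomputable instance mulSemiringActionLocField :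
    MulSemiringAction (inertiaQuot A N) (locField A N) where
  one_smul x := by
    apply Subtype.ext
    rw [coe_smul A N (Subgroup.one_mem _) 1 (by simp) x]
    rfl
  mul_smul g h x := by
    apply Subtype.ext
    rw [coe_smul A N (Subgroup.mul_mem _ (lift_mem_decomp A N g) (lift_mem_decomp A N h)) (g * h)
      (by rw [map_mul, mk_lift, mk_lift]; rfl) x, coe_smul_def, coe_smul_def]
    rfl
  smul_zero g := by
    apply Subtype.ext
    rw [coe_smul_def]
    simp
  smul_add g x y := by
    apply Subtype.ext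
    rw [coe_smul_def]
    simp [coe_smul_def]
  smul_one g := by
    apply Subtype.ext
    rw [coe_smul_def]
    simp
  smul_mul g x y := by
    apply Subtype.ext
    rw [coe_smul_def]
    simp [coe_smul_def]

/-- `G` preserves the valuation ring. -/
theorem smul_mem_locRing (g : inertiaQuot A N) {x : locField A N} (hx : x ∈ locRing A N) :
    g • x ∈ locRing A N := by
  rw [mem_locRing_iff, coe_smul_def]
  exact (apply_mem_iff (lift_mem_decomp A N g) _).mpr hx

noncomputable instance smulLocRing : SMul (inertiaQuot A N) (locRing A N) where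
  smul g x := ⟨g • (x : locField A N), smul_mem_locRing A N g x.2⟩

theorem coe_smul_locRing (g : inertiaQuot A N) (x : locRing A N) :
    ((g • x : locRing A N) : locField A N) = g • (x : locField A N) := rfl

noncomputable instance mulSemiringActionLocRing :
    MulSemiringAction (inertiaQuot A N) (locRing A N) where
  one_smul _ := Subtype.ext (one_smul _ _)
  mul_smul _ _ _ := Subtype.ext (mul_smul _ _ _)
  smul_zero _ := Subtype.ext (smul_zero _)
  smul_add _ _ _ := Subtype.ext (smul_add _ _ _)
  smul_one _ := Subtype.ext (smul_one _)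
  smul_mul _ _ _ := Subtype.ext (smul_mul' _ _ _)

omit hN in
/-- the value in `ℚ̄` of an element of `O`. -/
abbrev toQb (x : locRing A N) : Qb := ((x : locField A N) : Qb)

omit hN in
theorem toQb_mem (x : locRing A N) : toQb A N x ∈ A := x.2

omit hN in
theorem toQb_injective : Function.Injective (toQb A N) := fun _ _ h =>
  Subtype.ext (Subtype.ext h)

theorem toQb_smul {σ : GQ} (hσ : σ ∈ A.inertiaSubgroupIn ℚ) (x : locRing A N) :
    toQb A N (mkI A N σ hσ • x) = σ (toQb A N x) :=
  coe_mkI_smul A N σ hσ (x : locField A N)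

/-- `G` acts by isometries. -/
theorem valuation_smul (g : inertiaQuot A N) (x : locField A N) :
    A.valuation ((g • x : locField A N) : Qb) = A.valuation (x : Qb) := by
  rw [coe_smul_def]
  exact valuation_apply_eq (lift_mem_decomp A N g) _

/-- `G` acts trivially on the residue field. -/
theorem smul_sub_mem_nonunits (g : inertiaQuot A N) (x : locRing A N) :
    toQb A N (g • x) - toQb A N x ∈ A.nonunits := by
  show lift A N g (toQb A N x) - toQb A N x ∈ A.nonunits
  exact ((mem_inertiaSubgroupIn_iff_forall A _).mp (lift_mem A N g)).2 _ x.2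

/-- an element of `L` fixed by `G` lies in the inertia field of `A`. -/
theorem mem_inertiaField_of_fixed {x : locField A N} (hx : ∀ g : inertiaQuot A N, g • x = x) :
    (x : Qb) ∈ inertiaField A := by
  rw [mem_inertiaField_iff]
  intro σ hσ
  rw [← coe_mkI_smul A N σ hσ x, hx]

/-- the faithful part: an element of `G` acting trivially on `L` is `1`, provided `N` is closed. -/
theorem eq_one_of_smul_eq (hcl : IsClosed (N : Set GQ)) (g : inertiaQuot A N)
    (hg : ∀ x : locField A N, g • x = x) : g = 1 := by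
  obtain ⟨σ, hσ, rfl⟩ := mkI_surjective A N g
  apply Subtype.ext
  show QuotientGroup.mk' N σ = 1
  rw [QuotientGroup.mk'_apply, QuotientGroup.eq_one_iff]
  -- `σ` fixes `ℚ̄^N ⊆ L`
  have h1 : σ ∈ (IntermediateField.fixedField N).fixingSubgroup := by
    rw [IntermediateField.mem_fixingSubgroup_iff]
    intro y hy
    have hyL : y ∈ locField A N := by
      rw [mem_locField_iff]
      intro ρ _ h2
      exact hy ⟨ρ, h2⟩
    have := congrArg (Subtype.val) (hg ⟨y, hyL⟩)
    rw [coe_mkI_smul] at this
    exact this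
  have h2 : (IntermediateField.fixedField N).fixingSubgroup = N :=
    InfiniteGalois.fixingSubgroup_fixedField ⟨N, hcl⟩
  rw [h2] at h1
  exact h1

end Fermat.Agent.GP.Flat.DvrInst
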