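/-
GATE-P / S56 [P-FLAT](iv), node S56-FLAT-DVRINST part 3 (helper26).
Number-field level: for an open normal `N ≤ G_ℚ` the finite Galois extension `E = ℚ̄^N` of `ℚ` contains
an element `π` with `v(π)^{|G|} = v(p)`, `G = I_A N / N` the inertia quotient
(`e(P | p) = |I_P|`, Mathlib `card_inertia_eq_ramificationIdxIn`, and `I_P` is the image of `I_A`).
-/
import Mathlib
import Fermat.Agent.GP.Flat.DvrInst.LocField

set_option autoImplicit false

open scoped Pointwise NumberField
open IsDedekindDomain
open Fermat.Agent.Common_helper32 Fermat.Agent.S13.Global Fermat.Agent.GL.Local.InertiaField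
  Fermat.Agent.GL.Local

namespace Fermat.Agent.GP.Flat.DvrInst

attribute [local instance] topZb discreteTopology_Zb continuousSMul_Zb

variable (A : ValuationSubring Qb) (N : Subgroup GQ) [hN : N.Normal]
variable {p : ℕ} (hp : p.Prime) (hA : (p : Qb) ∈ A.nonunits)

omit hN in
/-- the restriction to `E = ℚ̄^N` of an element of the inertia group of `A` lies in the inertia group
of the prime of `E` below `A`. -/
theorem restrict_mem_inertia [NumberField (IntermediateField.fixedField N)]
    [IsGalois ℚ (IntermediateField.fixedField N)] {σ : GQ} (hσ : σ ∈ A.inertiaSubgroupIn ℚ) :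
    AlgEquiv.restrictNormalHom (IntermediateField.fixedField N) σ ∈
      ((centerIdeal A).comap (toZb (IntermediateField.fixedField N))).inertia
        Gal(IntermediateField.fixedField N/ℚ) := by
  intro y
  show AlgEquiv.restrictNormalHom (IntermediateField.fixedField N) σ • y - y ∈
    (centerIdeal A).comap (toZb (IntermediateField.fixedField N))
  rw [Ideal.mem_comap, map_sub, mem_centerIdeal]
  have h3 : ((toZb (IntermediateField.fixedField N)
      (AlgEquiv.restrictNormalHom (IntermediateField.fixedField N) σ • y) : Zb) : Qb) =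
      σ ((toZb (IntermediateField.fixedField N) y : Zb) : Qb) := by
    show algebraMap (IntermediateField.fixedField N) Qb
      ((AlgEquiv.restrictNormalHom (IntermediateField.fixedField N) σ) (y : _)) = σ _
    exact AlgEquiv.restrictNormal_commutes σ (IntermediateField.fixedField N) _
  show ((toZb (IntermediateField.fixedField N)
      (AlgEquiv.restrictNormalHom (IntermediateField.fixedField N) σ • y) : Zb) : Qb) -
      ((toZb (IntermediateField.fixedField N) y : Zb) : Qb) ∈ A.nonunits
  rw [h3]
  exact ((mem_inertiaSubgroupIn_iff_forall A σ).mp hσ).2 _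
    (isIntegral_mem_valuationSubring A _ (toZb (IntermediateField.fixedField N) y).2)

include hp hA in
/-- every element of the inertia group of the prime of `E = ℚ̄^N` below `A` is the restriction of an
element of the inertia group of `A`. -/
theorem exists_restrict_eq_of_mem_inertia (hopen : IsOpen (N : Set GQ))
    [NumberField (IntermediateField.fixedField N)]
    [IsGalois ℚ (IntermediateField.fixedField N)]
    (τ : Gal(IntermediateField.fixedField N/ℚ))
    (hτ : τ ∈ ((centerIdeal A).comap (toZb (IntermediateField.fixedField N))).inertia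
        Gal(IntermediateField.fixedField N/ℚ)) :
    ∃ σ : GQ, σ ∈ A.inertiaSubgroupIn ℚ ∧
      AlgEquiv.restrictNormalHom (IntermediateField.fixedField N) σ = τ := by
  have hclosed : IsClosed (N : Set GQ) := Subgroup.isClosed_of_isOpen N hopen
  obtain ⟨σ₀, rfl⟩ := AlgEquiv.restrictNormalHom_surjective Qb τ
  have key : ∀ z : Zb, (∀ g ∈ N, g • z = z) → σ₀ • z - z ∈ centerIdeal A := by
    intro z hz
    have hzK : (z : Qb) ∈ IntermediateField.fixedField N :=
      fun g => congrArg Subtype.val (hz g.1 g.2)
    have hint : IsIntegral ℤ (⟨(z : Qb), hzK⟩ : IntermediateField.fixedField N) := by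
      rw [← isIntegral_algebraMap_iff
        (algebraMap (IntermediateField.fixedField N) Qb).injective]
      exact z.2
    let y : 𝓞 (IntermediateField.fixedField N) := ⟨⟨(z : Qb), hzK⟩, hint⟩
    have hy : toZb (IntermediateField.fixedField N) y = z := Subtype.ext rfl
    have h2 : AlgEquiv.restrictNormalHom (IntermediateField.fixedField N) σ₀ • y - y ∈
        (centerIdeal A).comap (toZb (IntermediateField.fixedField N)) := hτ y
    have h3 : toZb (IntermediateField.fixedField N)
        (AlgEquiv.restrictNormalHom (IntermediateField.fixedField N) σ₀ • y) = σ₀ • z := by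
      apply Subtype.ext
      show algebraMap (IntermediateField.fixedField N) Qb
        ((AlgEquiv.restrictNormalHom (IntermediateField.fixedField N) σ₀) (y : _)) = σ₀ (z : Qb)
      exact AlgEquiv.restrictNormal_commutes σ₀ (IntermediateField.fixedField N) _
    rw [Ideal.mem_comap, map_sub, h3, hy] at h2
    exact h2
  obtain ⟨h, hh, hmem⟩ := exists_mul_mem_inertia N hN hclosed A p hp hA σ₀ key
  refine ⟨h * σ₀, hmem, ?_⟩
  rw [map_mul]
  have h1 : AlgEquiv.restrictNormalHom (IntermediateField.fixedField N) h = 1 := by
    ext x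
    exact (AlgEquiv.restrictNormal_commutes h (IntermediateField.fixedField N) x).trans
      (x.2 ⟨h, hh⟩)
  rw [h1, one_mul]

omit hN in
/-- an element of `G_ℚ` whose restriction to `ℚ̄^N` is trivial lies in `N` (`N` open). -/
theorem mem_of_restrict_eq_one (hopen : IsOpen (N : Set GQ))
    [Normal ℚ (IntermediateField.fixedField N)] {σ : GQ}
    (h : AlgEquiv.restrictNormalHom (IntermediateField.fixedField N) σ = 1) : σ ∈ N := by
  rw [← fixingSubgroup_fixedField_of_isOpen N hopen, IntermediateField.mem_fixingSubgroup_iff]
  intro x hx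
  have h1 := AlgEquiv.restrictNormal_commutes σ (IntermediateField.fixedField N) ⟨x, hx⟩
  have h2 : σ.restrictNormal (IntermediateField.fixedField N) ⟨x, hx⟩ = ⟨x, hx⟩ := by
    have := DFunLike.congr_fun h ⟨x, hx⟩
    exact this
  rw [h2] at h1
  exact h1.symm

theorem restrict_eq_of_mk_eq [Normal ℚ (IntermediateField.fixedField N)] {σ τ : GQ}
    (h : QuotientGroup.mk' N σ = QuotientGroup.mk' N τ) :
    AlgEquiv.restrictNormalHom (IntermediateField.fixedField N) σ =
      AlgEquiv.restrictNormalHom (IntermediateField.fixedField N) τ := by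
  have h1 : τ⁻¹ * σ ∈ N := (QuotientGroup.eq (s := N) (a := τ) (b := σ)).mp h.symm
  have h2 : AlgEquiv.restrictNormalHom (IntermediateField.fixedField N) (τ⁻¹ * σ) = 1 := by
    ext x
    exact (AlgEquiv.restrictNormal_commutes (τ⁻¹ * σ) (IntermediateField.fixedField N) x).trans
      (x.2 ⟨_, h1⟩)
  rw [map_mul, map_inv, inv_mul_eq_one] at h2
  exact h2.symm

include hp hA in
/-- **`|G| = |I_P|`**: the inertia quotient `G = I_A N / N` has the cardinality of the inertia group of
the prime of `E = ℚ̄^N` below `A`. -/
theorem card_inertiaQuot_eq (hopen : IsOpen (N : Set GQ))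
    [NumberField (IntermediateField.fixedField N)]
    [IsGalois ℚ (IntermediateField.fixedField N)] :
    Nat.card (inertiaQuot A N) =
      Nat.card (((centerIdeal A).comap (toZb (IntermediateField.fixedField N))).inertia
        Gal(IntermediateField.fixedField N/ℚ)) := by
  let f : inertiaQuot A N → (((centerIdeal A).comap (toZb (IntermediateField.fixedField N))).inertia
      Gal(IntermediateField.fixedField N/ℚ)) := fun g =>
    ⟨AlgEquiv.restrictNormalHom (IntermediateField.fixedField N) (lift A N g),
      restrict_mem_inertia A N (lift_mem A N g)⟩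
  apply Nat.card_congr (Equiv.ofBijective f ⟨?_, ?_⟩)
  · intro g g' hgg'
    have h1 : AlgEquiv.restrictNormalHom (IntermediateField.fixedField N) (lift A N g) =
        AlgEquiv.restrictNormalHom (IntermediateField.fixedField N) (lift A N g') :=
      congrArg Subtype.val hgg'
    have h2 : AlgEquiv.restrictNormalHom (IntermediateField.fixedField N)
        ((lift A N g')⁻¹ * lift A N g) = 1 := by
      rw [map_mul, map_inv, h1, inv_mul_cancel]
    have h3 := mem_of_restrict_eq_one N hopen h2
    apply Subtype.ext
    rw [← mk_lift A N g, ← mk_lift A N g']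
    exact ((QuotientGroup.eq (s := N)).mpr h3).symm
  · rintro ⟨τ, hτ⟩
    obtain ⟨σ, hσ, rfl⟩ := exists_restrict_eq_of_mem_inertia A N hp hA hopen τ hτ
    refine ⟨mkI A N σ hσ, ?_⟩
    apply Subtype.ext
    show AlgEquiv.restrictNormalHom (IntermediateField.fixedField N) (lift A N (mkI A N σ hσ)) = _
    exact restrict_eq_of_mk_eq N (mk_lift A N (mkI A N σ hσ))

include hp hA in
/-- **A uniformiser at the number-field level.**  `E = ℚ̄^N` contains `π` with
`v(π)^{|G|} = v(p)`. -/
theorem exists_unif_fixedField (hopen : IsOpen (N : Set GQ)) :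
    ∃ π : Qb, π ∈ IntermediateField.fixedField N ∧
      A.valuation π ^ Nat.card (inertiaQuot A N) = A.valuation (p : Qb) := by
  have hfd : FiniteDimensional ℚ (IntermediateField.fixedField N) :=
    finiteDimensional_fixedField N hopen
  have hgal : IsGalois ℚ (IntermediateField.fixedField N) := isGalois_fixedField N hN hopen
  have hnf : NumberField (IntermediateField.fixedField N) :=
    { to_charZero := inferInstance, to_finiteDimensional := hfd }
  rw [card_inertiaQuot_eq A N hp hA hopen]
  set P : Ideal (𝓞 (IntermediateField.fixedField N)) :=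
    (centerIdeal A).comap (toZb (IntermediateField.fixedField N)) with hPdef
  have hPprime : P.IsPrime := Ideal.comap_isPrime _ _
  have hqP : ((p : ℤ) : 𝓞 (IntermediateField.fixedField N)) ∈ P := by
    rw [hPdef, Ideal.mem_comap, mem_centerIdeal, map_intCast]
    simpa using hA
  have hP0 : P ≠ ⊥ := by
    intro h0
    rw [h0, Ideal.mem_bot] at hqP
    have : (p : ℤ) = 0 := by exact_mod_cast hqP
    exact hp.ne_zero (by exact_mod_cast this)
  let w : HeightOneSpectrum (𝓞 (IntermediateField.fixedField N)) := ⟨P, hPprime, hP0⟩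
  have h𝔭 : (P.under ℤ) ≠ ⊥ := fun h0 => hP0 (Ideal.eq_bot_of_comap_eq_bot h0)
  let v0 : HeightOneSpectrum ℤ := ⟨P.under ℤ, inferInstance, h𝔭⟩
  have hlo : w.asIdeal.LiesOver v0.asIdeal := ⟨rfl⟩
  have h01 := HeightOneSpectrum.valuation_liesOver (K := ℚ) (IntermediateField.fixedField N)
    v0 w (p : ℚ)
  have he0 : v0.asIdeal.ramificationIdx' w.asIdeal = P.ramificationIdx ℤ :=
    Ideal.ramificationIdx'_eq_ramificationIdx (p := v0.asIdeal) (q := w.asIdeal) h𝔭
  have hcard := Ideal.card_inertia_eq_ramificationIdxIn
    (G := Gal(IntermediateField.fixedField N/ℚ)) (P.under ℤ) P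
  rw [Ideal.ramificationIdxIn_eq_ramificationIdx (P.under ℤ) P
    Gal(IntermediateField.fixedField N/ℚ)] at hcard
  rw [he0, ← hcard] at h01
  have hv0 : v0.valuation ℚ (p : ℚ) = WithZero.exp (-1 : ℤ) := by
    have h1 : ((p : ℚ)) = algebraMap ℤ ℚ (p : ℤ) := by simp
    rw [h1, HeightOneSpectrum.valuation_of_algebraMap]
    exact HeightOneSpectrum.intValuation_singleton v0 (by exact_mod_cast hp.ne_zero)
      (int_under_eq_span P hp hqP)
  obtain ⟨ϖ, hϖ⟩ := w.valuation_exists_uniformizer (IntermediateField.fixedField N)
  have hϖ0 : ϖ ≠ 0 := by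
    intro h0
    rw [h0, map_zero] at hϖ
    exact WithZero.exp_ne_zero.symm hϖ
  have h3 : algebraMap ℚ (IntermediateField.fixedField N) (p : ℚ) =
      ((p : ℕ) : IntermediateField.fixedField N) := by simp
  rw [h3, hv0, ← hϖ, ← zpow_natCast] at h01
  obtain ⟨a, d, ha, hd, hmul⟩ := exists_primeCompl_mul_eq_of_valuation_eq w hϖ0 h01.symm
  obtain ⟨ha1, ha2⟩ := mem_and_inv_mem_of_notMem_center A _ a ha
  obtain ⟨hd1, hd2⟩ := mem_and_inv_mem_of_notMem_center A _ d hd
  have hva : A.valuation ((a : IntermediateField.fixedField N) : Qb) = 1 := by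
    apply le_antisymm ((A.valuation_le_one_iff _).mpr ha1)
    have := (A.valuation_le_one_iff _).mpr ha2
    rw [map_inv₀] at this
    by_contra hlt
    push Not at hlt
    have h0 : A.valuation ((a : IntermediateField.fixedField N) : Qb) ≠ 0 := by
      intro h0
      rw [h0, inv_zero] at this
      rw [h0] at hlt
      have hx : ((a : IntermediateField.fixedField N) : Qb) = 0 := (map_eq_zero _).mp h0
      rw [hx, inv_zero] at ha2
      exact absurd hx (by
        intro hx'
        apply ha
        have h1 : (a : IntermediateField.fixedField N) = 0 := Subtype.ext hx'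
        have h2 : a = 0 := NumberField.RingOfIntegers.coe_injective (by simpa using h1)
        rw [h2]
        exact Ideal.zero_mem _)
    have h1 : 1 < (A.valuation ((a : IntermediateField.fixedField N) : Qb))⁻¹ :=
      (one_lt_inv₀ (zero_lt_iff.mpr h0)).mpr hlt
    exact absurd this (not_le.mpr h1)
  have hvd : A.valuation ((d : IntermediateField.fixedField N) : Qb) = 1 := by
    apply le_antisymm ((A.valuation_le_one_iff _).mpr hd1)
    have := (A.valuation_le_one_iff _).mpr hd2
    rw [map_inv₀] at this
    by_contra hlt
    push Not at hlt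
    have h0 : A.valuation ((d : IntermediateField.fixedField N) : Qb) ≠ 0 := by
      intro h0
      have hx : ((d : IntermediateField.fixedField N) : Qb) = 0 := (map_eq_zero _).mp h0
      apply hd
      have h1 : (d : IntermediateField.fixedField N) = 0 := Subtype.ext hx
      have h2 : d = 0 := NumberField.RingOfIntegers.coe_injective (by simpa using h1)
      rw [h2]
      exact Ideal.zero_mem _
    have h1 : 1 < (A.valuation ((d : IntermediateField.fixedField N) : Qb))⁻¹ :=
      (one_lt_inv₀ (zero_lt_iff.mpr h0)).mpr hlt
    exact absurd this (not_le.mpr h1)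
  refine ⟨(ϖ : Qb), ϖ.2, ?_⟩
  have hmul' := congrArg (fun z : IntermediateField.fixedField N => A.valuation (z : Qb)) hmul
  simp only [MulMemClass.coe_mul, map_mul] at hmul'
  rw [hvd, mul_one, hva, mul_one] at hmul'
  rw [zpow_natCast] at hmul'
  rw [← map_pow]
  have : (((ϖ ^ Nat.card (P.inertia Gal(IntermediateField.fixedField N/ℚ)) :
      IntermediateField.fixedField N) : IntermediateField.fixedField N) : Qb) =
      (ϖ : Qb) ^ Nat.card (P.inertia Gal(IntermediateField.fixedField N/ℚ)) := by
    simp
  rw [← this, ← hmul']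
  simp

end Fermat.Agent.GP.Flat.DvrInst
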