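/-
GATE-P / S56 [P-FLAT](iv), node S56-FLAT-DVRINST part 4 (helper26).
`O = A ∩ L`, `L = ℚ̄^{D_A ∩ N}` (`N` open normal in `G_ℚ`), is a discrete valuation ring with finite
residue field, totally ramified of degree `|G|` over `O₀ = O^G`:  `v(L^×) = v(π)^ℤ`, `v(π)^{|G|} = v(p)`.
-/
import Mathlib
import Fermat.Agent.GL.Local.InertiaFieldBase
import Fermat.Agent.GP.Flat.DvrInst.NFLevel

set_option autoImplicit false

open scoped Pointwise
open Fermat.Agent.Common_helper32 Fermat.Agent.S13.Global Fermat.Agent.GL.Local.InertiaField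
  Fermat.Agent.GL.Local

namespace Fermat.Agent.GP.Flat.DvrInst

variable (A : ValuationSubring Qb) (N : Subgroup GQ) [hN : N.Normal]
variable {p : ℕ} (hp : p.Prime) (hA : (p : Qb) ∈ A.nonunits)

/-! ### The norm to the base -/

section Norm

variable [Fintype (inertiaQuot A N)]

/-- the norm `∏_{g ∈ G} g x`. -/
noncomputable def normG (x : locField A N) : locField A N := ∏ g : inertiaQuot A N, g • x

theorem smul_normG (h : inertiaQuot A N) (x : locField A N) : h • normG A N x = normG A N x := by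
  unfold normG
  rw [Finset.smul_prod']
  simp only [← mul_smul]
  exact Fintype.prod_equiv (Equiv.mulLeft h) _ _ (fun g => rfl)

theorem valuation_normG (x : locField A N) :
    A.valuation ((normG A N x : locField A N) : Qb) =
      A.valuation (x : Qb) ^ Fintype.card (inertiaQuot A N) := by
  unfold normG
  have h1 : ((∏ g : inertiaQuot A N, g • x : locField A N) : Qb) =
      ∏ g : inertiaQuot A N, ((g • x : locField A N) : Qb) := by
    simp
  rw [h1, map_prod]
  simp only [valuation_smul]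
  rw [Finset.prod_const, Finset.card_univ]

theorem normG_mem_inertiaField (x : locField A N) :
    ((normG A N x : locField A N) : Qb) ∈ inertiaField A :=
  mem_inertiaField_of_fixed A N (fun g => smul_normG A N g x)

end Norm

/-! ### Values -/

include hp hA in
/-- the value of a nonzero element of the inertia field is an integral power of `v(p)`. -/
theorem exists_valuation_eq_zpow_of_mem_inertiaField' {x : Qb} (hx : x ∈ inertiaField A)
    (hx0 : x ≠ 0) : ∃ n : ℤ, A.valuation x = A.valuation (p : Qb) ^ n := by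
  obtain ⟨n, h1, h2⟩ := exists_zpow_unit_of_fixed A hp hA x hx0 ((mem_inertiaField_iff A x).mp hx)
  refine ⟨n, ?_⟩
  have hp0 : (p : Qb) ≠ 0 := by exact_mod_cast hp.ne_zero
  have hpn : (p : Qb) ^ n ≠ 0 := zpow_ne_zero _ hp0
  have hv1 : A.valuation (x / (p : Qb) ^ n) ≤ 1 := (A.valuation_le_one_iff _).mpr h1
  have hv2 : A.valuation ((x / (p : Qb) ^ n)⁻¹) ≤ 1 := (A.valuation_le_one_iff _).mpr h2
  have hne : x / (p : Qb) ^ n ≠ 0 := div_ne_zero hx0 hpn
  have hv0 : A.valuation (x / (p : Qb) ^ n) ≠ 0 := (Valuation.ne_zero_iff _).mpr hne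
  have hv : A.valuation (x / (p : Qb) ^ n) = 1 := by
    apply le_antisymm hv1
    rw [map_inv₀] at hv2
    exact (inv_le_one₀ (zero_lt_iff.mpr hv0)).mp hv2
  rw [map_div₀, map_zpow₀] at hv
  have hvp : A.valuation (p : Qb) ^ n ≠ 0 :=
    zpow_ne_zero _ ((Valuation.ne_zero_iff _).mpr hp0)
  exact (div_eq_one_iff_eq hvp).mp hv

include hp hA in
/-- **the value group of `L`**: if `v(π)^{|G|} = v(p)` then `v(L^×) ⊆ v(π)^ℤ`. -/
theorem exists_valuation_eq_zpow [Fintype (inertiaQuot A N)] {π : Qb}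
    (hπ : A.valuation π ^ Fintype.card (inertiaQuot A N) = A.valuation (p : Qb))
    (x : locField A N) (hx0 : x ≠ 0) :
    ∃ n : ℤ, A.valuation (x : Qb) = A.valuation π ^ n := by
  have hcard : Fintype.card (inertiaQuot A N) ≠ 0 := Fintype.card_ne_zero
  have hN0 : normG A N x ≠ 0 := by
    unfold normG
    rw [Finset.prod_ne_zero_iff]
    intro g _
    exact (smul_ne_zero_iff_ne g).mpr hx0
  have hN0' : ((normG A N x : locField A N) : Qb) ≠ 0 := fun h => hN0 (Subtype.ext h)
  obtain ⟨n, hn⟩ := exists_valuation_eq_zpow_of_mem_inertiaField' A hp hA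
    (normG_mem_inertiaField A N x) hN0'
  refine ⟨n, ?_⟩
  rw [valuation_normG, ← hπ, ← zpow_natCast, ← zpow_natCast, ← zpow_mul, mul_comm, zpow_mul,
    zpow_natCast, zpow_natCast] at hn
  have hx0' : (x : Qb) ≠ 0 := fun h => hx0 (Subtype.ext h)
  have hvx : 0 < A.valuation (x : Qb) := zero_lt_iff.mpr ((Valuation.ne_zero_iff _).mpr hx0')
  have hπ0 : A.valuation π ≠ 0 := by
    intro h0
    rw [h0, zero_pow hcard] at hπ
    have hp0 : (p : Qb) ≠ 0 := by exact_mod_cast hp.ne_zero
    exact ((Valuation.ne_zero_iff A.valuation).mpr hp0) hπ.symm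
  have hvπ : 0 < A.valuation π ^ n := zero_lt_iff.mpr (zpow_ne_zero _ hπ0)
  exact (pow_left_inj₀ hvx.le hvπ.le hcard).mp hn

/-! ### The discrete valuation ring -/

/-- an element of `ℚ̄^N` as an element of `L`. -/
noncomputable def ofFixed (π : Qb) (hπ : π ∈ IntermediateField.fixedField N) : locField A N :=
  ⟨π, (mem_locField_iff A N π).mpr fun σ _ h2 => hπ ⟨σ, h2⟩⟩

omit hN in
theorem coe_ofFixed (π : Qb) (hπ : π ∈ IntermediateField.fixedField N) :
    ((ofFixed A N π hπ : locField A N) : Qb) = π := rfl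

include hp hA in
/-- **Uniformiser data**: `L` contains `π` with `v(π) < 1`, `v(π)^{|G|} = v(p)`, `v(L^×) ⊆ v(π)^ℤ`. -/
theorem exists_unif (hopen : IsOpen (N : Set GQ)) :
    ∃ π : locField A N, (π : Qb) ∈ A.nonunits ∧ π ≠ 0 ∧
      A.valuation (π : Qb) ^ Nat.card (inertiaQuot A N) = A.valuation (p : Qb) ∧
      ∀ x : locField A N, x ≠ 0 → ∃ n : ℤ, A.valuation (x : Qb) = A.valuation (π : Qb) ^ n := by
  have hfin : Finite (inertiaQuot A N) := finite_inertiaQuot A N hopen
  let _ : Fintype (inertiaQuot A N) := Fintype.ofFinite _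
  obtain ⟨π, hπE, hπ⟩ := exists_unif_fixedField A N hp hA hopen
  have hcard : Nat.card (inertiaQuot A N) ≠ 0 := Nat.card_pos.ne'
  have hvp : A.valuation (p : Qb) < 1 := (A.mem_nonunits_iff).mp hA
  have hp0 : (p : Qb) ≠ 0 := by exact_mod_cast hp.ne_zero
  have hπ0 : π ≠ 0 := by
    rintro rfl
    rw [map_zero, zero_pow hcard] at hπ
    exact ((Valuation.ne_zero_iff A.valuation).mpr hp0) hπ.symm
  refine ⟨ofFixed A N π hπE, ?_, fun h => hπ0 (congrArg Subtype.val h), hπ, ?_⟩
  · rw [coe_ofFixed, A.mem_nonunits_iff]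
    by_contra hge
    push Not at hge
    have : 1 ≤ A.valuation π ^ Nat.card (inertiaQuot A N) := one_le_pow₀ hge
    rw [hπ] at this
    exact absurd hvp (not_lt.mpr this)
  · intro x hx0
    rw [Nat.card_eq_fintype_card] at hπ
    exact exists_valuation_eq_zpow A N hp hA hπ x hx0

include hp hA in
/-- **`O = A ∩ L` is a discrete valuation ring.** -/
theorem isDiscreteValuationRing_locRing (hopen : IsOpen (N : Set GQ)) :
    IsDiscreteValuationRing (locRing A N) := by
  obtain ⟨π, hπ, hπ0, -, hval⟩ := exists_unif A N hp hA hopen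
  exact ComapDVR.isDiscreteValuationRing_sub A (L := locField A N) (π := π) hπ hπ0 hval

/-! ### The residue field is finite -/

include hp hA in
/-- a Frobenius element of `A`, elementwise on `A`. -/
theorem exists_frobenius :
    ∃ φ : GQ, φ ∈ A.decompositionSubgroup ℚ ∧ ∀ a ∈ A, φ a - a ^ p ∈ A.nonunits := by
  obtain ⟨φ, hφ⟩ := exists_isFrobeniusAt_of_liesOver A p hp hA
  refine ⟨φ, hφ.mem_decompositionSubgroup, fun a ha => ?_⟩
  have h := hφ.smul_residue_eq (IsLocalRing.residue A ⟨a, ha⟩)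
  rw [← IsLocalRing.ResidueField.residue_smul, ← map_pow, ← sub_eq_zero, ← map_sub,
    IsLocalRing.residue_eq_zero_iff, A.valuation_lt_one_iff] at h
  rw [A.mem_nonunits_iff]
  exact h

theorem pow_frobenius_sub_mem {φ : GQ} (hφ : φ ∈ A.decompositionSubgroup ℚ)
    (hfr : ∀ a ∈ A, φ a - a ^ p ∈ A.nonunits) (k : ℕ) {a : Qb} (ha : a ∈ A) :
    (φ ^ k) a - a ^ p ^ k ∈ A.nonunits := by
  induction k with
  | zero =>
    simp only [pow_zero, pow_one, AlgEquiv.one_apply, sub_self]
    rw [A.mem_nonunits_iff, map_zero]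
    exact zero_lt_one
  | succ k ih =>
    have h1 : (φ ^ (k + 1)) a - a ^ p ^ (k + 1) =
        φ ((φ ^ k) a - a ^ p ^ k) + (φ (a ^ p ^ k) - (a ^ p ^ k) ^ p) := by
      rw [pow_succ' φ k, pow_succ, pow_mul, map_sub]
      show φ ((φ ^ k) a) - _ = _
      ring
    rw [h1, A.mem_nonunits_iff]
    refine lt_of_le_of_lt (Valuation.map_add _ _ _) (max_lt ?_ ?_)
    · exact (A.mem_nonunits_iff).mp ((apply_mem_nonunits_iff hφ _).mpr ih)
    · exact (A.mem_nonunits_iff).mp (hfr _ (A.pow_mem ha _))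

omit hN in
include hp hA in
/-- elements of `O` are congruent to their `p^k`-th power, `k` depending only on `N`. -/
theorem exists_pow_sub_mem_nonunits (hopen : IsOpen (N : Set GQ)) :
    ∃ k : ℕ, 0 < k ∧ ∀ x : locRing A N,
      toQb A N x ^ p ^ k - toQb A N x ∈ A.nonunits := by
  obtain ⟨φ, hφ, hfr⟩ := exists_frobenius A hp hA
  have hfin : Finite (GQ ⧸ N) := Subgroup.quotient_finite_of_isOpen N hopen
  have hfi : N.FiniteIndex := Subgroup.finiteIndex_of_finite_quotient
  obtain ⟨k, hk0, -, hmem⟩ := Subgroup.exists_pow_mem_of_index_ne_zero hfi.index_ne_zero φ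
  refine ⟨k, hk0, fun x => ?_⟩
  have h1 : (φ ^ k) (toQb A N x) = toQb A N x :=
    (mem_locField_iff A N _).mp (x : locField A N).2 _ (Subgroup.pow_mem _ hφ k) hmem
  have h2 := pow_frobenius_sub_mem A hφ hfr k (toQb_mem A N x)
  rw [h1] at h2
  rw [A.mem_nonunits_iff] at h2 ⊢
  rwa [← neg_sub, Valuation.map_neg]

omit hN in
theorem mem_maximalIdeal_locRing_iff (x : locRing A N) :
    x ∈ IsLocalRing.maximalIdeal (locRing A N) ↔ toQb A N x ∈ A.nonunits := by
  rw [IsLocalRing.mem_maximalIdeal, mem_nonunits_iff, ComapDVR.isUnit_sub_iff, A.mem_nonunits_iff]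
  have h1 : A.valuation (toQb A N x) ≤ 1 := (A.valuation_le_one_iff _).mpr x.2
  constructor
  · intro h
    exact lt_of_le_of_ne h1 h
  · intro h
    exact h.ne

omit hN in
include hp hA in
/-- **the residue field of `O` is finite.** -/
theorem finite_residueField (hopen : IsOpen (N : Set GQ)) :
    Finite (IsLocalRing.ResidueField (locRing A N)) := by
  obtain ⟨k, hk0, hk⟩ := exists_pow_sub_mem_nonunits A N hp hA hopen
  have hp1 : 1 < p ^ k := Nat.one_lt_pow hk0.ne' hp.one_lt
  let f : Polynomial (IsLocalRing.ResidueField (locRing A N)) :=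
    Polynomial.X ^ p ^ k - Polynomial.X
  have hf0 : f ≠ 0 := FiniteField.X_pow_card_sub_X_ne_zero _ hp1
  have hall : ∀ y : IsLocalRing.ResidueField (locRing A N), y ∈ f.rootSet _ := by
    intro y
    obtain ⟨x, rfl⟩ := IsLocalRing.residue_surjective y
    rw [Polynomial.mem_rootSet]
    refine ⟨hf0, ?_⟩
    simp only [f, map_sub, map_pow, Polynomial.aeval_X]
    rw [← map_pow, ← map_sub, IsLocalRing.residue_eq_zero_iff, mem_maximalIdeal_locRing_iff]
    exact hk x
  have hfin : (f.rootSet (IsLocalRing.ResidueField (locRing A N))).Finite :=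
    Polynomial.rootSet_finite f _
  exact Set.finite_univ_iff.mp (hfin.subset fun y _ => hall y)

end Fermat.Agent.GP.Flat.DvrInst
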