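/-
GATE-P / S56 [P-FLAT](iv), node S56-FLAT-DVRINST part 5 (helper26).
The base subring `O₀ = O^G` of `O = A ∩ L` (unramified: values in `v(p)^ℕ`), a uniformiser `π` of `O`
with `p = ε π^{|G|}`, faithfulness `σ π = π → σ = 1` and the lower numbering data.
-/
import Mathlib
import Fermat.Agent.GP.Flat.DvrInst.Dvr

set_option autoImplicit false

open scoped Pointwise
open Fermat.Agent.Common_helper32 Fermat.Agent.S13.Global Fermat.Agent.GL.Local.InertiaField
  Fermat.Agent.GL.Local

namespace Fermat.Agent.GP.Flat.DvrInst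

variable (A : ValuationSubring Qb) (N : Subgroup GQ) [hN : N.Normal]
variable {p : ℕ} (hp : p.Prime) (hA : (p : Qb) ∈ A.nonunits)

/-! ### The base subring -/

/-- `O₀ = O^G`, the ring of integers of the maximal unramified subextension. -/
noncomputable def baseSubring : Subring (locRing A N) where
  carrier := {x | ∀ g : inertiaQuot A N, g • x = x}
  mul_mem' hx hy g := by rw [smul_mul', hx g, hy g]
  one_mem' g := smul_one g
  add_mem' hx hy g := by rw [smul_add, hx g, hy g]
  zero_mem' g := smul_zero g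
  neg_mem' hx g := by rw [smul_neg, hx g]

theorem mem_baseSubring_iff (x : locRing A N) :
    x ∈ baseSubring A N ↔ ∀ g : inertiaQuot A N, g • x = x := Iff.rfl

/-- binder `hinv` of `Converse` / `PmBound`. -/
theorem hinv (x : locRing A N) (h : ∀ g : inertiaQuot A N, g • x = x) : x ∈ baseSubring A N := h

/-- binder `hfix` of `Converse` / `PmBound`. -/
theorem hfix (g : inertiaQuot A N) (x : locRing A N) (h : x ∈ baseSubring A N) : g • x = x := h g

theorem toQb_mem_inertiaField {x : locRing A N} (hx : x ∈ baseSubring A N) :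
    toQb A N x ∈ inertiaField A :=
  mem_inertiaField_of_fixed A N (x := (x : locField A N))
    (fun g => congrArg Subtype.val (hx g))

/-- the inertia group fixes `O₀` pointwise. -/
theorem apply_toQb_of_mem_baseSubring {x : locRing A N} (hx : x ∈ baseSubring A N) {σ : GQ}
    (hσ : σ ∈ A.inertiaSubgroupIn ℚ) : σ (toQb A N x) = toQb A N x :=
  (mem_inertiaField_iff A _).mp (toQb_mem_inertiaField A N hx) σ hσ

/-- an element of `O` whose value in `ℚ̄` lies in the inertia field is in `O₀`. -/
theorem mem_baseSubring_of_mem_inertiaField {x : locRing A N}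
    (hx : toQb A N x ∈ inertiaField A) : x ∈ baseSubring A N := by
  intro g
  obtain ⟨σ, hσ, rfl⟩ := mkI_surjective A N g
  apply toQb_injective
  rw [toQb_smul]
  exact (mem_inertiaField_iff A _).mp hx σ hσ

include hp hA in
/-- **(U)**: the nonzero elements of `O₀` have value `v(p)^n`, `n : ℕ`. -/
theorem exists_valuation_eq_pow_of_mem_baseSubring {t : locRing A N} (ht : t ∈ baseSubring A N)
    (ht0 : t ≠ 0) : ∃ n : ℕ, A.valuation (toQb A N t) = A.valuation (p : Qb) ^ n := by
  have ht0' : toQb A N t ≠ 0 := fun h => ht0 (toQb_injective A N (by rw [h]; rfl))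
  obtain ⟨n, hn⟩ := exists_valuation_eq_zpow_of_mem_inertiaField' A hp hA
    (toQb_mem_inertiaField A N ht) ht0'
  have hp0 : (p : Qb) ≠ 0 := by exact_mod_cast hp.ne_zero
  have hvp0 : A.valuation (p : Qb) ≠ 0 := (Valuation.ne_zero_iff _).mpr hp0
  have hvp1 : A.valuation (p : Qb) < 1 := (A.mem_nonunits_iff).mp hA
  have hn0 : 0 ≤ n := by
    by_contra hneg
    push Not at hneg
    have h1 : A.valuation (toQb A N t) ≤ 1 := (A.valuation_le_one_iff _).mpr (toQb_mem A N t)
    rw [hn] at h1
    have h2 : 1 < A.valuation (p : Qb) ^ n := by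
      have := (zpow_right_strictAnti₀ (zero_lt_iff.2 hvp0) hvp1) hneg
      simpa using this
    exact absurd h1 (not_le.mpr h2)
  obtain ⟨m, rfl⟩ := Int.eq_ofNat_of_zero_le hn0
  exact ⟨m, by rw [hn, zpow_natCast]⟩

/-! ### The uniformiser -/

include hp hA in
/-- **A uniformiser `π` of `O` with `p = ε π^{|G|}`.** -/
theorem exists_irreducible_pow (hopen : IsOpen (N : Set GQ)) :
    ∃ (π : locRing A N) (ε₀ : (locRing A N)ˣ), Irreducible π ∧
      ((p : ℕ) : locRing A N) = ε₀ * π ^ Nat.card (inertiaQuot A N) ∧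
      A.valuation (p : Qb) = A.valuation (toQb A N π) ^ Nat.card (inertiaQuot A N) ∧
      toQb A N π ∈ A.nonunits := by
  obtain ⟨π, hπ, hπ0, hπe, hval⟩ := exists_unif A N hp hA hopen
  have hirr := ComapDVR.irreducible_unif A (L := locField A N) (π := π) hπ hπ0 hval
  set e := Nat.card (inertiaQuot A N) with he
  have hp0 : ((p : ℕ) : locField A N) ≠ 0 := by exact_mod_cast hp.ne_zero
  have hπe0 : π ^ e ≠ 0 := pow_ne_zero _ hπ0
  have hvπ0 : A.valuation (π : Qb) ≠ 0 :=
    (Valuation.ne_zero_iff _).mpr (fun h => hπ0 (Subtype.ext h))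
  have hu : A.valuation (algebraMap (locField A N) Qb (((p : ℕ) : locField A N) / π ^ e)) = 1 := by
    rw [map_div₀, map_div₀, map_natCast, map_pow, map_pow]
    show A.valuation (p : Qb) / A.valuation (π : Qb) ^ e = 1
    rw [← hπe, div_self (pow_ne_zero _ hvπ0)]
  have humem : ((p : ℕ) : locField A N) / π ^ e ∈ locRing A N := by
    rw [ComapDVR.mem_sub_iff, ← A.valuation_le_one_iff, hu]
  have hunit : IsUnit (⟨((p : ℕ) : locField A N) / π ^ e, humem⟩ : locRing A N) :=
    (ComapDVR.isUnit_sub_iff A _).mpr hu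
  refine ⟨ComapDVR.unif A hπ, hunit.unit, hirr, ?_, hπe.symm, hπ⟩
  apply Subtype.ext
  show ((p : ℕ) : locField A N) = ((p : ℕ) : locField A N) / π ^ e * π ^ e
  rw [div_mul_cancel₀ _ hπe0]

/-! ### Faithfulness on the uniformiser -/

include hp hA in
/-- **`σ ↦ σ π` is injective** (the orbit product is a `G`-invariant of value `v(π)^{|orbit|}`, and
values of invariants are powers of `v(p) = v(π)^{|G|}`). -/
theorem smul_injective_of_valuation_pow_eq [Fintype (inertiaQuot A N)] {π : locField A N}
    (hπ1 : A.valuation (π : Qb) < 1)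
    (hπe : A.valuation (π : Qb) ^ Fintype.card (inertiaQuot A N) = A.valuation (p : Qb)) :
    Function.Injective (fun g : inertiaQuot A N => g • π) := by
  classical
  have hcard0 : Fintype.card (inertiaQuot A N) ≠ 0 := Fintype.card_ne_zero
  have hp0 : (p : Qb) ≠ 0 := by exact_mod_cast hp.ne_zero
  have hvp0 : A.valuation (p : Qb) ≠ 0 := (Valuation.ne_zero_iff _).mpr hp0
  have hvπ0 : A.valuation (π : Qb) ≠ 0 := by
    intro h0
    rw [h0, zero_pow hcard0] at hπe
    exact hvp0 hπe.symm
  have hπ0 : π ≠ 0 := by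
    rintro rfl
    exact hvπ0 (by simp)
  set S : Finset (locField A N) := Finset.univ.image (fun g : inertiaQuot A N => g • π) with hS
  set c : locField A N := ∏ x ∈ S, x with hc
  have hSmem : ∀ x ∈ S, ∃ g : inertiaQuot A N, g • π = x := by
    intro x hx
    obtain ⟨g, -, rfl⟩ := Finset.mem_image.mp hx
    exact ⟨g, rfl⟩
  -- `c` is `G`-invariant
  have hcfix : ∀ h : inertiaQuot A N, h • c = c := by
    intro h
    rw [hc, Finset.smul_prod']
    refine Finset.prod_bij (fun x _ => h • x) ?_ ?_ ?_ ?_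
    · intro x hx
      obtain ⟨g, rfl⟩ := hSmem x hx
      rw [← mul_smul]
      exact Finset.mem_image_of_mem _ (Finset.mem_univ _)
    · intro x _ y _ hxy
      exact (MulAction.injective h) hxy
    · intro y hy
      obtain ⟨g, rfl⟩ := hSmem y hy
      refine ⟨(h⁻¹ * g) • π, Finset.mem_image_of_mem _ (Finset.mem_univ _), ?_⟩
      rw [← mul_smul, mul_inv_cancel_left]
    · intro x _
      rfl
  have hc0 : c ≠ 0 := by
    rw [hc, Finset.prod_ne_zero_iff]
    intro x hx
    obtain ⟨g, rfl⟩ := hSmem x hx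
    exact (smul_ne_zero_iff_ne g).mpr hπ0
  have hc0' : (c : Qb) ≠ 0 := fun h => hc0 (Subtype.ext h)
  obtain ⟨n, hn⟩ := exists_valuation_eq_zpow_of_mem_inertiaField' A hp hA
    (mem_inertiaField_of_fixed A N hcfix) hc0'
  -- the value of `c`
  have hvc : A.valuation (c : Qb) = A.valuation (π : Qb) ^ S.card := by
    have h1 : (c : Qb) = ∏ x ∈ S, (x : Qb) := by
      rw [hc]
      simp
    rw [h1, map_prod]
    rw [Finset.prod_congr rfl (g := fun _ => A.valuation (π : Qb))]
    · rw [Finset.prod_const]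
    · intro x hx
      obtain ⟨g, rfl⟩ := hSmem x hx
      exact valuation_smul A N g π
  rw [hvc, ← hπe, ← zpow_natCast, ← zpow_natCast, ← zpow_mul] at hn
  have hinj := (zpow_right_strictAnti₀ (zero_lt_iff.2 hvπ0) hπ1).injective hn
  -- `|S| = |G| n`, so `|S| ≥ |G|`
  have hSpos : 0 < S.card := Finset.card_pos.mpr ⟨1 • π, Finset.mem_image_of_mem _ (Finset.mem_univ _)⟩
  have hle : S.card ≤ Fintype.card (inertiaQuot A N) := by
    rw [hS, ← Finset.card_univ]
    exact Finset.card_image_le
  have hn1 : 1 ≤ n := by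
    by_contra hlt
    push Not at hlt
    have h0 : n ≤ 0 := by omega
    have : (S.card : ℤ) ≤ 0 := by
      rw [hinj]
      exact mul_nonpos_of_nonneg_of_nonpos (by positivity) h0
    omega
  have hge : Fintype.card (inertiaQuot A N) ≤ S.card := by
    have : (Fintype.card (inertiaQuot A N) : ℤ) * 1 ≤ (Fintype.card (inertiaQuot A N) : ℤ) * n :=
      mul_le_mul_of_nonneg_left hn1 (by positivity)
    rw [← hinj, mul_one] at this
    exact_mod_cast this
  have heq : S.card = (Finset.univ : Finset (inertiaQuot A N)).card := by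
    rw [Finset.card_univ]
    omega
  have := Finset.card_image_iff.mp heq
  intro g g' hgg'
  exact this (Finset.mem_coe.mpr (Finset.mem_univ g)) (Finset.mem_coe.mpr (Finset.mem_univ g')) hgg'

include hp hA in
/-- binder `hfaith`: an element of `G` fixing a uniformiser `π` with `v(π)^{|G|} = v(p)` is trivial. -/
theorem eq_one_of_smul_unif_eq (hopen : IsOpen (N : Set GQ)) {π : locRing A N}
    (hπ1 : toQb A N π ∈ A.nonunits)
    (hπe : A.valuation (p : Qb) = A.valuation (toQb A N π) ^ Nat.card (inertiaQuot A N))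
    (σ : inertiaQuot A N) (hσ : σ • π = π) : σ = 1 := by
  have hfin : Finite (inertiaQuot A N) := finite_inertiaQuot A N hopen
  let _ : Fintype (inertiaQuot A N) := Fintype.ofFinite _
  rw [Nat.card_eq_fintype_card] at hπe
  have hinj := smul_injective_of_valuation_pow_eq A N hp hA (π := (π : locField A N))
    ((A.mem_nonunits_iff).mp hπ1) hπe.symm
  apply hinj
  show σ • (π : locField A N) = (1 : inertiaQuot A N) • (π : locField A N)
  rw [one_smul, ← coe_smul_locRing, hσ]

include hp hA in
/-- **Lower numbering data**: `σ π - π = t_σ π^{a_σ}` for `σ ≠ 1`. -/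
theorem exists_lower_numbering (hopen : IsOpen (N : Set GQ)) {π : locRing A N}
    (hπ : Irreducible π) (hπ1 : toQb A N π ∈ A.nonunits)
    (hπe : A.valuation (p : Qb) = A.valuation (toQb A N π) ^ Nat.card (inertiaQuot A N)) :
    ∃ (a : inertiaQuot A N → ℕ) (t : inertiaQuot A N → (locRing A N)ˣ),
      ∀ σ : inertiaQuot A N, σ ≠ 1 → σ • π - π = t σ * π ^ a σ := by
  classical
  have hdvr : IsDiscreteValuationRing (locRing A N) :=
    isDiscreteValuationRing_locRing A N hp hA hopen
  have key : ∀ σ : inertiaQuot A N, ∃ (n : ℕ) (u : (locRing A N)ˣ),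
      σ ≠ 1 → σ • π - π = u * π ^ n := by
    intro σ
    by_cases hσ : σ = 1
    · exact ⟨0, 1, fun h => absurd hσ h⟩
    · have hne : σ • π - π ≠ 0 := by
        intro h0
        exact hσ (eq_one_of_smul_unif_eq A N hp hA hopen hπ1 hπe σ (sub_eq_zero.mp h0))
      obtain ⟨n, u, hu⟩ := IsDiscreteValuationRing.eq_unit_mul_pow_irreducible hne hπ
      exact ⟨n, u, fun _ => hu⟩
  choose a t hat using key
  exact ⟨a, t, hat⟩

end Fermat.Agent.GP.Flat.DvrInst
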