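/-
GATE-P / S56 [P-FLAT](iv), node S56-FLAT-DVRINST part 6 (helper26).
**The root bridge**: `O₀ = O^G`, `q ∈ O₀[X]` monic of degree `|G|`, `β ∈ A` a root of `q` in `ℚ̄`.  If every
`σ` in the decomposition group fixing `O₀` and `β` lies in `N` (this is what Fontaine's `(P_m)`, in the
monogenic form `fixes_points` of board 4059, provides), then `β ∈ O = A ∩ ℚ̄^{D_A ∩ N}`.
Proof: helper5's orbit count `PmRoot.le_stabilizer_of_natDegree_le_index` in the group
`S = {σ ∈ D_A : σ|_{O₀} = id}`, in which `S ∩ N` has index `≥ |G|`.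
-/
import Mathlib
import Fermat.Agent.GP.Flat.DvrInst.Base
import Fermat.Agent.GP.Flat.PmRoot

set_option autoImplicit false

open scoped Pointwise
open Polynomial
open Fermat.Agent.Common_helper32 Fermat.Agent.S13.Global Fermat.Agent.GL.Local.InertiaField
  Fermat.Agent.GL.Local

namespace Fermat.Agent.GP.Flat.DvrInst

variable (A : ValuationSubring Qb) (N : Subgroup GQ) [hN : N.Normal]

/-- the embedding `O → ℚ̄` as a ring homomorphism. -/
noncomputable def ιO : locRing A N →+* Qb :=
  (algebraMap (locField A N) Qb).comp (locRing A N).subtype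

omit hN in
theorem ιO_apply (x : locRing A N) : ιO A N x = toQb A N x := rfl

omit hN in
theorem ιO_injective : Function.Injective (ιO A N) := toQb_injective A N

/-- the group `S` of elements of the decomposition group fixing `O₀` pointwise. -/
noncomputable def fixBase : Subgroup GQ where
  carrier := {σ | σ ∈ A.decompositionSubgroup ℚ ∧
    ∀ t : locRing A N, t ∈ baseSubring A N → σ (toQb A N t) = toQb A N t}
  mul_mem' := by
    rintro σ τ ⟨h1, h2⟩ ⟨h3, h4⟩
    refine ⟨Subgroup.mul_mem _ h1 h3, fun t ht => ?_⟩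
    show σ (τ (toQb A N t)) = toQb A N t
    rw [h4 t ht, h2 t ht]
  one_mem' := ⟨Subgroup.one_mem _, fun _ _ => rfl⟩
  inv_mem' := by
    rintro σ ⟨h1, h2⟩
    refine ⟨Subgroup.inv_mem _ h1, fun t ht => ?_⟩
    have h3 := h2 t ht
    have h4 : σ⁻¹ (σ (toQb A N t)) = toQb A N t := by
      show (σ⁻¹ * σ) (toQb A N t) = toQb A N t
      simp
    rw [h3] at h4
    exact h4

theorem mem_fixBase_iff (σ : GQ) :
    σ ∈ fixBase A N ↔ σ ∈ A.decompositionSubgroup ℚ ∧
      ∀ t : locRing A N, t ∈ baseSubring A N → σ (toQb A N t) = toQb A N t := Iff.rfl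

theorem inertia_le_fixBase : A.inertiaSubgroupIn ℚ ≤ fixBase A N := fun _ hσ =>
  ⟨inertia_le_decomp hσ, fun _ ht => apply_toQb_of_mem_baseSubring A N ht hσ⟩

theorem decomp_inf_le_fixBase : A.decompositionSubgroup ℚ ⊓ N ≤ fixBase A N := by
  rintro σ ⟨h1, h2⟩
  exact ⟨h1, fun t _ => (mem_locField_iff A N _).mp (t : locField A N).2 σ h1 h2⟩

/-- `S ∩ N` has index at least `|G|` in `S`. -/
theorem card_le_index (hopen : IsOpen (N : Set GQ)) :
    Nat.card (inertiaQuot A N) ≤ (N.subgroupOf (fixBase A N)).index := by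
  have hfin : Finite (GQ ⧸ N) := Subgroup.quotient_finite_of_isOpen N hopen
  have hfi : N.FiniteIndex := Subgroup.finiteIndex_of_finite_quotient
  have hidx : (N.subgroupOf (fixBase A N)).index ≠ 0 := by
    intro h0
    have h1 : N.relIndex (fixBase A N) ∣ N.index := Subgroup.relIndex_dvd_index_of_normal N _
    have h2 : N.relIndex (fixBase A N) = 0 := h0
    rw [h2, zero_dvd_iff] at h1
    exact hfi.index_ne_zero h1
  have hfi' : (N.subgroupOf (fixBase A N)).FiniteIndex := ⟨hidx⟩
  have hfinq : Finite (fixBase A N ⧸ N.subgroupOf (fixBase A N)) :=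
    Subgroup.finite_quotient_of_finiteIndex
  rw [Subgroup.index_eq_card]
  let f : inertiaQuot A N → fixBase A N ⧸ N.subgroupOf (fixBase A N) := fun g =>
    QuotientGroup.mk ⟨lift A N g, inertia_le_fixBase A N (lift_mem A N g)⟩
  apply Nat.card_le_card_of_injective f
  intro g g' hgg'
  have h1 := (QuotientGroup.eq (s := N.subgroupOf (fixBase A N))).mp hgg'
  have h2 : (lift A N g)⁻¹ * lift A N g' ∈ N := by
    have := Subgroup.mem_subgroupOf.mp h1
    simpa using this
  apply Subtype.ext
  rw [← mk_lift A N g, ← mk_lift A N g']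
  exact (QuotientGroup.eq (s := N)).mpr h2

/-- **Root bridge.** -/
theorem exists_toQb_eq_of_root (hopen : IsOpen (N : Set GQ))
    (q : (baseSubring A N)[X]) (hqm : q.Monic)
    (hqd : q.natDegree = Nat.card (inertiaQuot A N)) (β : Qb)
    (hβ : (q.map ((ιO A N).comp (baseSubring A N).subtype)).eval β = 0) (hβA : β ∈ A)
    (hstab : ∀ σ : GQ, σ ∈ A.decompositionSubgroup ℚ →
      (∀ t : locRing A N, t ∈ baseSubring A N → σ (toQb A N t) = toQb A N t) →
      σ β = β → σ ∈ N) :
    ∃ x : locRing A N, ιO A N x = β := by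
  set j : baseSubring A N →+* Qb := (ιO A N).comp (baseSubring A N).subtype with hj
  set g : Qb[X] := q.map j with hg
  have hgm : g.Monic := hqm.map j
  have hgd : g.natDegree = Nat.card (inertiaQuot A N) := by
    rw [hg, hqm.natDegree_map, hqd]
  have hgfix : ∀ σ : fixBase A N, σ • g = g := by
    intro σ
    rw [Polynomial.smul_eq_map, hg, Polynomial.map_map]
    congr 1
    ext t
    exact σ.2.2 (t : locRing A N) t.2
  have key := PmRoot.le_stabilizer_of_natDegree_le_index (Sg := fixBase A N) (M := Qb) g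
    hgm.ne_zero hgfix (β := β) hβ (N.subgroupOf (fixBase A N))
    (by rw [hgd]; exact card_le_index A N hopen)
    (by
      intro σ hσ
      rw [MulAction.mem_stabilizer_iff] at hσ
      rw [Subgroup.mem_subgroupOf]
      exact hstab σ.1 σ.2.1 σ.2.2 hσ)
  have hβL : β ∈ locField A N := by
    rw [mem_locField_iff]
    intro σ h1 h2
    have hσS : σ ∈ fixBase A N := decomp_inf_le_fixBase A N ⟨h1, h2⟩
    have h3 : (⟨σ, hσS⟩ : fixBase A N) ∈ N.subgroupOf (fixBase A N) := by
      rw [Subgroup.mem_subgroupOf]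
      exact h2
    have h4 := key h3
    rw [MulAction.mem_stabilizer_iff] at h4
    exact h4
  exact ⟨⟨⟨β, hβL⟩, hβA⟩, rfl⟩

/-- **The hypothesis `hPmO` of `PmRoot.ad_mul_le_of_pm`** from the stabiliser form of `(P_m)`:
`hPm` says that for every root `β` of a monic `q ∈ O₀[X]` of degree `|G|` close to a conjugate of
`π`, the elements of the decomposition group fixing `O₀` and `β` lie in `N`. -/
theorem hPmO_of_stab (hopen : IsOpen (N : Set GQ)) [Fintype (inertiaQuot A N)]
    (π : locRing A N) (p : ℕ) (hvp : A.valuation (p : Qb) < 1)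
    (hPm : ∀ (q : (baseSubring A N)[X]) (β : Qb), q.Monic →
      q.natDegree = Fintype.card (inertiaQuot A N) →
      (q.map ((ιO A N).comp (baseSubring A N).subtype)).eval β = 0 →
      A.valuation β ^ Fintype.card (inertiaQuot A N) = A.valuation (p : Qb) →
      A.valuation (((PmBound.orbitPoly₀ (baseSubring A N) (hinv A N) π).map
        ((ιO A N).comp (baseSubring A N).subtype)).eval β) ^ (p - 1) < A.valuation (p : Qb) ^ p →
      ∀ σ : GQ, σ ∈ A.decompositionSubgroup ℚ →
        (∀ t : locRing A N, t ∈ baseSubring A N → σ (toQb A N t) = toQb A N t) →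
        σ β = β → σ ∈ N) :
    ∀ (q : (baseSubring A N)[X]) (β : Qb), q.Monic →
      q.natDegree = Fintype.card (inertiaQuot A N) →
      (q.map ((ιO A N).comp (baseSubring A N).subtype)).eval β = 0 →
      A.valuation β ^ Fintype.card (inertiaQuot A N) = A.valuation (p : Qb) →
      A.valuation (((PmBound.orbitPoly₀ (baseSubring A N) (hinv A N) π).map
        ((ιO A N).comp (baseSubring A N).subtype)).eval β) ^ (p - 1) < A.valuation (p : Qb) ^ p →
      ∃ x : locRing A N, ιO A N x = β := by
  intro q β hqm hqd hβ hvβ hprec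
  have hβA : β ∈ A := by
    rw [← A.valuation_le_one_iff]
    by_contra hlt
    push Not at hlt
    have : 1 ≤ A.valuation β ^ Fintype.card (inertiaQuot A N) := one_le_pow₀ hlt.le
    rw [hvβ] at this
    exact absurd hvp (not_lt.mpr this)
  exact exists_toQb_eq_of_root A N hopen q hqm (by rw [hqd, Nat.card_eq_fintype_card]) β hβ hβA
    (hPm q β hqm hqd hβ hvβ hprec)

end Fermat.Agent.GP.Flat.DvrInst
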