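/-
GATE-P / S56 [P-FLAT](iv), node S56-FLAT-DVRINST part 8 (helper26).
**`O = O₀[π]`** in the henselian `ℚ̄` model (binder `hgen` of `PmBound`, and the hypothesis `hval` of the
monogenic `(P_m)` of board 4059): `[L : L^G] = |G|` (Artin), `1, π, …, π^{|G|-1}` is an integral basis
(helper87's `Ram.Monogenic.exists_coord_integral`).
-/
import Mathlib
import Fermat.Agent.GP.Flat.DvrInst.RootBridge
import Fermat.Agent.GP.Ram.Monogenic

set_option autoImplicit false

open scoped Pointwise
open Polynomial
open Fermat.Agent.Common_helper32 Fermat.Agent.S13.Global Fermat.Agent.GL.Local.InertiaField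
  Fermat.Agent.GL.Local

namespace Fermat.Agent.GP.Flat.DvrInst

variable (A : ValuationSubring Qb) (N : Subgroup GQ) [hN : N.Normal]
variable {p : ℕ} (hp : p.Prime) (hA : (p : Qb) ∈ A.nonunits)

/-- `G` acts faithfully on `L` (`N` closed). -/
theorem faithfulSMul_locField (hcl : IsClosed (N : Set GQ)) :
    FaithfulSMul (inertiaQuot A N) (locField A N) := by
  refine ⟨fun {g g'} h => ?_⟩
  have h1 : g'⁻¹ * g = 1 := by
    apply eq_one_of_smul_eq A N hcl
    intro x
    rw [mul_smul, h x, inv_smul_smul]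
  exact (inv_mul_eq_one.mp h1).symm

/-- the valuation of `ℚ̄` restricted to `L`. -/
noncomputable def vL : Valuation (locField A N) (A.ValueGroup) :=
  A.valuation.comap (algebraMap (locField A N) Qb)

omit hN in
theorem vL_apply (x : locField A N) : vL A N x = A.valuation (x : Qb) := rfl

include hp hA in
/-- **`O = O₀[π]`, coordinate form.** -/
theorem exists_coord_locRing (hopen : IsOpen (N : Set GQ)) {π : locRing A N}
    (hπ1 : toQb A N π ∈ A.nonunits)
    (hπe : A.valuation (p : Qb) = A.valuation (toQb A N π) ^ Nat.card (inertiaQuot A N))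
    (x : locRing A N) :
    ∃ a : Fin (Nat.card (inertiaQuot A N)) → locRing A N, (∀ k, a k ∈ baseSubring A N) ∧
      x = ∑ k : Fin (Nat.card (inertiaQuot A N)), a k * π ^ (k : ℕ) := by
  classical
  have hfin : Finite (inertiaQuot A N) := finite_inertiaQuot A N hopen
  let _ : Fintype (inertiaQuot A N) := Fintype.ofFinite _
  have hcl : IsClosed (N : Set GQ) := Subgroup.isClosed_of_isOpen N hopen
  have hfaith : FaithfulSMul (inertiaQuot A N) (locField A N) := faithfulSMul_locField A N hcl
  set n := Nat.card (inertiaQuot A N) with hn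
  have hn0 : 0 < n := Nat.card_pos
  have hdeg : Module.finrank (FixedPoints.subfield (inertiaQuot A N) (locField A N))
      (locField A N) = n := by
    rw [FixedPoints.finrank_eq_card, hn, Nat.card_eq_fintype_card]
  have hp0 : (p : Qb) ≠ 0 := by exact_mod_cast hp.ne_zero
  have hvp0 : A.valuation (p : Qb) ≠ 0 := (Valuation.ne_zero_iff _).mpr hp0
  have hvp1 : A.valuation (p : Qb) < 1 := (A.mem_nonunits_iff).mp hA
  have hvπ1 : A.valuation (toQb A N π) < 1 := (A.mem_nonunits_iff).mp hπ1
  have hvπ0 : A.valuation (toQb A N π) ≠ 0 := by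
    intro h0
    rw [h0, zero_pow hn0.ne'] at hπe
    exact hvp0 hπe
  have hπ0 : (π : locField A N) ≠ 0 := by
    intro h0
    apply hvπ0
    show A.valuation ((π : locField A N) : Qb) = 0
    rw [h0]
    simp
  -- values of elements of the fixed field
  have hK : ∀ y : FixedPoints.subfield (inertiaQuot A N) (locField A N), (y : locField A N) ≠ 0 →
      ∃ m : ℤ, A.valuation ((y : locField A N) : Qb) = A.valuation (toQb A N π) ^ ((n : ℤ) * m) := by
    intro y hy0
    have hy0' : ((y : locField A N) : Qb) ≠ 0 := fun h => hy0 (Subtype.ext h)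
    have hyI : ((y : locField A N) : Qb) ∈ inertiaField A :=
      mem_inertiaField_of_fixed A N (fun g => y.2 g)
    obtain ⟨m, hm⟩ := exists_valuation_eq_zpow_of_mem_inertiaField' A hp hA hyI hy0'
    refine ⟨m, ?_⟩
    rw [hm, hπe, zpow_mul, zpow_natCast]
  have hgap : ∀ d : ℕ, 0 < d → d < n →
      ∀ y : FixedPoints.subfield (inertiaQuot A N) (locField A N),
        vL A N (algebraMap _ (locField A N) y) ≠ vL A N (π : locField A N) ^ d := by
    intro d hd0 hdn y
    rw [vL_apply, vL_apply]
    show A.valuation ((y : locField A N) : Qb) ≠ A.valuation (toQb A N π) ^ d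
    by_cases hy0 : (y : locField A N) = 0
    · rw [hy0]
      simp only [ZeroMemClass.coe_zero, map_zero]
      exact (pow_ne_zero _ hvπ0).symm
    · obtain ⟨m, hm⟩ := hK y hy0
      rw [hm, ← zpow_natCast]
      intro heq
      have h1 := (zpow_right_strictAnti₀ (zero_lt_iff.2 hvπ0) hvπ1).injective heq
      have h2 : (n : ℤ) ∣ (d : ℤ) := ⟨m, h1.symm⟩
      have h3 : (n : ℤ) ≤ (d : ℤ) := Int.le_of_dvd (by exact_mod_cast hd0) h2
      omega
  have huni : ∀ y : FixedPoints.subfield (inertiaQuot A N) (locField A N),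
      1 < vL A N (algebraMap _ (locField A N) y) →
        (vL A N (π : locField A N) ^ n)⁻¹ ≤ vL A N (algebraMap _ (locField A N) y) := by
    intro y hy1
    rw [vL_apply] at hy1 ⊢
    rw [vL_apply]
    change 1 < A.valuation ((y : locField A N) : Qb) at hy1
    show (A.valuation (toQb A N π) ^ n)⁻¹ ≤ A.valuation ((y : locField A N) : Qb)
    have hy0 : (y : locField A N) ≠ 0 := by
      intro h0
      rw [h0] at hy1
      simp only [ZeroMemClass.coe_zero, map_zero] at hy1
      exact absurd hy1 (not_lt.mpr zero_le_one)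
    obtain ⟨m, hm⟩ := hK y hy0
    rw [hm] at hy1 ⊢
    have hm0 : (n : ℤ) * m < 0 := by
      by_contra hge
      push Not at hge
      have : A.valuation (toQb A N π) ^ ((n : ℤ) * m) ≤ 1 :=
        zpow_le_one₀ (zero_lt_iff.2 hvπ0) hvπ1.le hge
      exact absurd hy1 (not_lt.mpr this)
    have hm1 : m ≤ -1 := by
      by_contra hgt
      push Not at hgt
      have : 0 ≤ (n : ℤ) * m := mul_nonneg (by positivity) (by omega)
      omega
    rw [← zpow_natCast, ← zpow_neg]
    apply (zpow_right_strictAnti₀ (zero_lt_iff.2 hvπ0) hvπ1).antitone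
    have : (n : ℤ) * m ≤ (n : ℤ) * (-1) := mul_le_mul_of_nonneg_left hm1 (by positivity)
    omega
  obtain ⟨c, hc1, hc2⟩ := Ram.Monogenic.exists_coord_integral (vL A N) hn0 hπ0
    (by rw [vL_apply]; exact hvπ1) hgap huni hdeg (x : locField A N)
    (by rw [vL_apply]; exact (A.valuation_le_one_iff _).mpr x.2)
  have hmem : ∀ k, ((c k : FixedPoints.subfield (inertiaQuot A N) (locField A N)) :
      locField A N) ∈ locRing A N := by
    intro k
    rw [mem_locRing_iff, ← A.valuation_le_one_iff]
    exact hc1 k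
  refine ⟨fun k => ⟨(c k : locField A N), hmem k⟩, fun k g => ?_, ?_⟩
  · apply Subtype.ext
    exact (c k).2 g
  · apply Subtype.ext
    rw [hc2]
    simp only [AddSubmonoidClass.coe_finsetSum, MulMemClass.coe_mul, SubmonoidClass.coe_pow]
    rfl

include hp hA in
/-- **binder `hgen`: `O = O₀[π]`.** -/
theorem hgen (hopen : IsOpen (N : Set GQ)) {π : locRing A N}
    (hπ1 : toQb A N π ∈ A.nonunits)
    (hπe : A.valuation (p : Qb) = A.valuation (toQb A N π) ^ Nat.card (inertiaQuot A N))
    (x : locRing A N) : ∃ q : (baseSubring A N)[X], aeval π q = x := by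
  obtain ⟨a, ha, hx⟩ := exists_coord_locRing A N hp hA hopen hπ1 hπe x
  refine ⟨∑ k : Fin (Nat.card (inertiaQuot A N)), C (⟨a k, ha k⟩ : baseSubring A N) * X ^ (k : ℕ), ?_⟩
  rw [map_sum, hx]
  refine Finset.sum_congr rfl fun k _ => ?_
  rw [map_mul, map_pow, aeval_X, aeval_C]
  rfl

/-- `O₀` as a subring of `ℚ̄`. -/
noncomputable def baseQb : Subring Qb := (baseSubring A N).map (ιO A N)

theorem mem_baseQb_iff (y : Qb) :
    y ∈ baseQb A N ↔ ∃ t : locRing A N, t ∈ baseSubring A N ∧ toQb A N t = y := by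
  unfold baseQb
  rw [Subring.mem_map]
  rfl

theorem baseQb_le : ∀ y ∈ baseQb A N, y ∈ A := by
  intro y hy
  obtain ⟨t, -, rfl⟩ := (mem_baseQb_iff A N y).mp hy
  exact toQb_mem A N t

include hp hA in
/-- **`hval` of the monogenic `(P_m)`**: every element of `O` lies in `O₀[π]` inside `ℚ̄`. -/
theorem toQb_mem_adjoin (hopen : IsOpen (N : Set GQ)) {π : locRing A N}
    (hπ1 : toQb A N π ∈ A.nonunits)
    (hπe : A.valuation (p : Qb) = A.valuation (toQb A N π) ^ Nat.card (inertiaQuot A N))
    (x : locRing A N) : toQb A N x ∈ Algebra.adjoin (baseQb A N) {toQb A N π} := by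
  obtain ⟨a, ha, hx⟩ := exists_coord_locRing A N hp hA hopen hπ1 hπe x
  have h1 : toQb A N x = ∑ k : Fin (Nat.card (inertiaQuot A N)),
      toQb A N (a k) * toQb A N π ^ (k : ℕ) := by
    rw [hx]
    show ιO A N _ = _
    rw [map_sum]
    refine Finset.sum_congr rfl fun k _ => ?_
    rw [map_mul, map_pow]
    rfl
  rw [h1]
  refine Subalgebra.sum_mem _ fun k _ => ?_
  refine Subalgebra.mul_mem _ ?_ (Subalgebra.pow_mem _ (Algebra.subset_adjoin (Set.mem_singleton _)) _)
  have h2 : toQb A N (a k) ∈ baseQb A N := (mem_baseQb_iff A N _).mpr ⟨a k, ha k, rfl⟩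
  exact Subalgebra.algebraMap_mem _ (⟨toQb A N (a k), h2⟩ : baseQb A N)

end Fermat.Agent.GP.Flat.DvrInst
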