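/-
GATE-P / S56 [P-FLAT](iv), node S56-FLAT-DVRINST part 10 (helper26).
Bridge between Mathlib's normalised valuation `addVal` of the DVR `O = locRing A N` and the valuation
of `A` on `ℚ̄`:  `A.valuation (toQb x) = A.valuation (toQb π) ^ n ↔ addVal O x = n`, and the binder
`hU` of helper28's `KummerCorFinal` (the value group of `O₀` is `|G| ℤ`).
-/
import Mathlib
import Fermat.Agent.GP.Flat.DvrInst.Base

set_option autoImplicit false

open scoped Pointwise
open IsDiscreteValuationRing (addVal)
open Fermat.Agent.Common_helper32 Fermat.Agent.S13.Global Fermat.Agent.GL.Local.InertiaField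
  Fermat.Agent.GL.Local

namespace Fermat.Agent.GP.Flat.DvrInst

variable (A : ValuationSubring Qb) (N : Subgroup GQ)

/-- units of `O` have value `1`. -/
theorem valuation_toQb_of_isUnit {u : locRing A N} (hu : IsUnit u) :
    A.valuation (toQb A N u) = 1 :=
  (ComapDVR.isUnit_sub_iff A u).mp hu

theorem valuation_toQb_unit_mul_pow (u : (locRing A N)ˣ) (π : locRing A N) (n : ℕ) :
    A.valuation (toQb A N ((u : locRing A N) * π ^ n)) = A.valuation (toQb A N π) ^ n := by
  have h1 : toQb A N ((u : locRing A N) * π ^ n) = toQb A N (u : locRing A N) * toQb A N π ^ n := by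
    simp [toQb]
  rw [h1, map_mul, map_pow, valuation_toQb_of_isUnit A N u.isUnit, one_mul]

variable [IsDiscreteValuationRing (locRing A N)]

/-- **`v(x) = v(π)^{addVal x}`**, in the form of an equivalence. -/
theorem addVal_eq_natCast_iff {π : locRing A N} (hπ : Irreducible π)
    (hπ1 : toQb A N π ∈ A.nonunits) {x : locRing A N} (hx : x ≠ 0) (n : ℕ) :
    addVal (locRing A N) x = (n : ℕ∞) ↔
      A.valuation (toQb A N x) = A.valuation (toQb A N π) ^ n := by
  obtain ⟨m, u, rfl⟩ := IsDiscreteValuationRing.eq_unit_mul_pow_irreducible hx hπ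
  rw [IsDiscreteValuationRing.addVal_def' u hπ m, valuation_toQb_unit_mul_pow]
  have hvπ1 : A.valuation (toQb A N π) < 1 := (A.mem_nonunits_iff).mp hπ1
  have hπ0 : toQb A N π ≠ 0 := fun h => hπ.ne_zero (toQb_injective A N (by rw [h]; rfl))
  have hvπ0 : 0 < A.valuation (toQb A N π) :=
    zero_lt_iff.mpr ((Valuation.ne_zero_iff _).mpr hπ0)
  constructor
  · intro h
    have : m = n := by exact_mod_cast h
    rw [this]
  · intro h
    have := (pow_right_strictAnti₀ hvπ0 hvπ1).injective h
    rw [this]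

theorem valuation_toQb_eq_pow_addVal {π : locRing A N} (hπ : Irreducible π) {x : locRing A N}
    (hx : x ≠ 0) :
    ∃ n : ℕ, addVal (locRing A N) x = (n : ℕ∞) ∧
      A.valuation (toQb A N x) = A.valuation (toQb A N π) ^ n := by
  obtain ⟨m, u, rfl⟩ := IsDiscreteValuationRing.eq_unit_mul_pow_irreducible hx hπ
  exact ⟨m, IsDiscreteValuationRing.addVal_def' u hπ m, valuation_toQb_unit_mul_pow A N u π m⟩

variable [hN : N.Normal] {p : ℕ} (hp : p.Prime) (hA : (p : Qb) ∈ A.nonunits)

include hp hA in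
/-- **binder `hU`** of `KummerCorFinal`: the nonzero elements of `O₀` have `addVal` in `|G| ℕ`. -/
theorem hU [Fintype (inertiaQuot A N)] {π : locRing A N} (hπ : Irreducible π)
    (hπ1 : toQb A N π ∈ A.nonunits)
    (hπe : A.valuation (p : Qb) = A.valuation (toQb A N π) ^ Fintype.card (inertiaQuot A N))
    (t : locRing A N) (ht : t ∈ baseSubring A N) (ht0 : t ≠ 0) :
    ∃ k : ℕ, addVal (locRing A N) t = ((k * Fintype.card (inertiaQuot A N) : ℕ) : ℕ∞) := by
  obtain ⟨k, hk⟩ := exists_valuation_eq_pow_of_mem_baseSubring A N hp hA ht ht0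
  refine ⟨k, ?_⟩
  rw [addVal_eq_natCast_iff A N hπ hπ1 ht0, hk, hπe, ← pow_mul, mul_comm]

end Fermat.Agent.GP.Flat.DvrInst
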