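/-
GATE-P / S56 [P-FLAT](iv), node S56-FLAT-DVRINST-GENSUB (helper87), on helper26's henselian `ℚ̄` model.
**`O^H = O₀[y]`** for a subgroup `H ≤ G = inertiaQuot A N`: if `y ∈ O = locRing A N` is `H`-fixed with
`v(p) = v(y)^m`, `|G| = m |H|` (a uniformiser of the totally ramified `L^H / L^G`), then every `H`-fixed
`x ∈ O` is `∑_{k<m} a_k y^k` with `a_k ∈ O₀ = baseSubring A N` — the binder `hy` of
`KummerCor.kummer_level_ge` / `kummer_val_false` in the model.

* `exists_coord_locRing_sub` : coordinate form;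
* `hgen_sub` : polynomial form `∃ q : O₀[X], aeval y q = x`.
Proof: `GP/Ram/MonogenicSub.exists_coord_fixed` (Artin for `H` and `G`, tower law, distinct valuations).
-/
import Mathlib
import Fermat.Agent.GP.Flat.DvrInst.Gen
import Fermat.Agent.GP.Ram.MonogenicSub

set_option autoImplicit false

open scoped Pointwise
open Polynomial
open Fermat.Agent.Common_helper32 Fermat.Agent.S13.Global Fermat.Agent.GL.Local.InertiaField
  Fermat.Agent.GL.Local

namespace Fermat.Agent.GP.Flat.DvrInst

variable (A : ValuationSubring Qb) (N : Subgroup GQ) [hN : N.Normal]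
variable {p : ℕ} (hp : p.Prime) (hA : (p : Qb) ∈ A.nonunits)

include hp hA in
/-- **`O^H = ∑ O₀ y^k`, coordinate form.** -/
theorem exists_coord_locRing_sub (hopen : IsOpen (N : Set GQ)) (H : Subgroup (inertiaQuot A N))
    {y : locRing A N} (hyH : ∀ h ∈ H, h • y = y) (m : ℕ)
    (hm : Nat.card (inertiaQuot A N) = m * Nat.card H)
    (hye : A.valuation (p : Qb) = A.valuation (toQb A N y) ^ m)
    (x : locRing A N) (hx : ∀ h ∈ H, h • x = x) :
    ∃ a : Fin m → locRing A N, (∀ k, a k ∈ baseSubring A N) ∧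
      x = ∑ k : Fin m, a k * y ^ (k : ℕ) := by
  classical
  have hfin : Finite (inertiaQuot A N) := finite_inertiaQuot A N hopen
  have hcl : IsClosed (N : Set GQ) := Subgroup.isClosed_of_isOpen N hopen
  have hfaith : FaithfulSMul (inertiaQuot A N) (locField A N) := faithfulSMul_locField A N hcl
  have hm0 : 0 < m := by
    rcases Nat.eq_zero_or_pos m with h0 | h0
    · rw [h0, zero_mul] at hm
      exact absurd hm (Nat.card_pos (α := inertiaQuot A N)).ne'
    · exact h0
  have hp0 : (p : Qb) ≠ 0 := by exact_mod_cast hp.ne_zero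
  have hvp1 : A.valuation (p : Qb) < 1 := (A.mem_nonunits_iff).mp hA
  have hpL : ((p : locField A N) : Qb) = (p : Qb) := by simp
  have hpL0 : (p : locField A N) ≠ 0 := by exact_mod_cast hp.ne_zero
  -- the data in `L = locField A N`
  have hyH' : ∀ h ∈ H, h • (y : locField A N) = (y : locField A N) := by
    intro h hh
    rw [← coe_smul_locRing, hyH h hh]
  have hxH' : ∀ h ∈ H, h • (x : locField A N) = (x : locField A N) := by
    intro h hh
    rw [← coe_smul_locRing, hx h hh]
  have hϖG : ∀ g : inertiaQuot A N, g • (p : locField A N) = (p : locField A N) := by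
    intro g
    exact map_natCast (MulSemiringAction.toRingHom (inertiaQuot A N) (locField A N) g) p
  have hyv : vL A N (y : locField A N) ^ m = vL A N (p : locField A N) := by
    rw [vL_apply, vL_apply, hpL]
    exact hye.symm
  have hU : ∀ z : locField A N, (∀ g : inertiaQuot A N, g • z = z) → z ≠ 0 →
      ∃ k : ℤ, vL A N z = vL A N (p : locField A N) ^ k := by
    intro z hz hz0
    have hz0' : (z : Qb) ≠ 0 := fun h => hz0 (Subtype.ext h)
    have hzI : (z : Qb) ∈ inertiaField A := mem_inertiaField_of_fixed A N hz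
    obtain ⟨k, hk⟩ := exists_valuation_eq_zpow_of_mem_inertiaField' A hp hA hzI hz0'
    exact ⟨k, by rw [vL_apply, vL_apply, hpL]; exact hk⟩
  obtain ⟨c, hc1, hc2, hc3⟩ := Ram.MonogenicSub.exists_coord_fixed (vL A N) H m hm0 hm hyH' hϖG hyv
    hpL0 (by rw [vL_apply, hpL]; exact hvp1) hU (x : locField A N) hxH'
    (by rw [vL_apply]; exact (A.valuation_le_one_iff _).mpr x.2)
  have hmem : ∀ k, c k ∈ locRing A N := by
    intro k
    rw [mem_locRing_iff, ← A.valuation_le_one_iff]
    exact hc2 k
  refine ⟨fun k => ⟨c k, hmem k⟩, fun k g => ?_, ?_⟩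
  · apply Subtype.ext
    exact hc1 k g
  · apply Subtype.ext
    rw [hc3]
    simp only [AddSubmonoidClass.coe_finsetSum, MulMemClass.coe_mul, SubmonoidClass.coe_pow]

include hp hA in
/-- **binder `hy` of `KummerCor.kummer_level_ge`: `O^H = O₀[y]`.** -/
theorem hgen_sub (hopen : IsOpen (N : Set GQ)) (H : Subgroup (inertiaQuot A N))
    {y : locRing A N} (hyH : ∀ h ∈ H, h • y = y) (m : ℕ)
    (hm : Nat.card (inertiaQuot A N) = m * Nat.card H)
    (hye : A.valuation (p : Qb) = A.valuation (toQb A N y) ^ m)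
    (x : locRing A N) (hx : ∀ h ∈ H, h • x = x) :
    ∃ q : (baseSubring A N)[X], aeval y q = x := by
  obtain ⟨a, ha, hxa⟩ := exists_coord_locRing_sub A N hp hA hopen H hyH m hm hye x hx
  refine ⟨∑ k : Fin m, C (⟨a k, ha k⟩ : baseSubring A N) * X ^ (k : ℕ), ?_⟩
  rw [map_sum, hxa]
  refine Finset.sum_congr rfl fun k _ => ?_
  rw [map_mul, map_pow, aeval_X, aeval_C]
  rfl

end Fermat.Agent.GP.Flat.DvrInst
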