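/-
GATE-P / S56 [P-FLAT], node S56-FLAT-DVRINST part 12 (helper26).  **Hensel's lemma inside `ℚ̄`.**
`A` a valuation subring of `ℚ̄`, `H` a subgroup of its decomposition group: a simple root modulo `𝔪_A`
of a monic polynomial with `H`-fixed coefficients in `A`, at an `H`-stable residue class, lifts to a
unique root in `A`, and that root is `H`-fixed (the conjugates of the root are roots in the same residue
class).  Consequence: `O = A ∩ ℚ̄^{D_A ∩ N}` is a henselian local ring (no completion).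
-/
import Mathlib
import Fermat.Agent.GP.Flat.DvrInst.LocField

set_option autoImplicit false

open scoped Pointwise
open Polynomial IsLocalRing
open Fermat.Agent.Common_helper32 Fermat.Agent.GL.Local.InertiaField Fermat.Agent.GL.Local

namespace Fermat.Agent.GP.Flat.DvrInst

variable (A : ValuationSubring Qb)

theorem mem_maximalIdeal_iff_nonunits (x : A) : x ∈ maximalIdeal A ↔ (x : Qb) ∈ A.nonunits := by
  rw [A.valuation_lt_one_iff, A.mem_nonunits_iff]

theorem eval_map_coe (f : A[X]) (a : A) :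
    (f.map (algebraMap A Qb)).eval (a : Qb) = ((f.eval a : A) : Qb) :=
  Polynomial.eval_map_apply (algebraMap A Qb) a

/-- the roots in `ℚ̄` of a monic polynomial over `A` lie in `A`. -/
theorem root_mem_of_monic (f : A[X]) (hf : f.Monic) {r : Qb}
    (hr : (f.map (algebraMap A Qb)).eval r = 0) : r ∈ A := by
  have hint : IsIntegral A r := ⟨f, hf, by rw [← eval_map]; exact hr⟩
  obtain ⟨y, rfl⟩ := IsIntegrallyClosed.algebraMap_eq_of_integral hint
  exact y.2

/-- a monic polynomial over `A` taking a non-unit value at `a₀` has a root in `A` congruent to `a₀`. -/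
theorem exists_root_sub_mem (f : A[X]) (hf : f.Monic) (a₀ : A) (h0 : f.eval a₀ ∈ maximalIdeal A) :
    ∃ a : A, f.eval a = 0 ∧ a - a₀ ∈ maximalIdeal A := by
  set F : Qb[X] := f.map (algebraMap A Qb) with hF
  have hFm : F.Monic := hf.map _
  have hsplit : F.Splits := IsAlgClosed.splits F
  have hev : F.eval (a₀ : Qb) = ((f.eval a₀ : A) : Qb) := eval_map_coe A f a₀
  have hprod := hsplit.eval_eq_prod_roots_of_monic hFm (a₀ : Qb)
  have hroots : ∀ x ∈ F.roots.map (fun r => (a₀ : Qb) - r), x ∈ A := by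
    intro x hx
    obtain ⟨r, hr, rfl⟩ := Multiset.mem_map.mp hx
    exact A.sub_mem a₀.2 (root_mem_of_monic A f hf ((mem_roots hFm.ne_zero).mp hr))
  have hnon : (F.roots.map (fun r => (a₀ : Qb) - r)).prod ∈ A.nonunits := by
    rw [← hprod, hev]
    exact (mem_maximalIdeal_iff_nonunits A _).mp h0
  obtain ⟨x, hx, hxn⟩ := exists_mem_nonunits_of_prod_mem A _ hroots hnon
  obtain ⟨r, hr, rfl⟩ := Multiset.mem_map.mp hx
  have hrroot : F.eval r = 0 := (mem_roots hFm.ne_zero).mp hr
  have hrA : r ∈ A := root_mem_of_monic A f hf hrroot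
  refine ⟨⟨r, hrA⟩, ?_, ?_⟩
  · apply Subtype.ext
    have h2 : F.eval ((⟨r, hrA⟩ : A) : Qb) = ((f.eval (⟨r, hrA⟩ : A) : A) : Qb) :=
      eval_map_coe A f _
    rw [← h2]
    exact hrroot
  · rw [mem_maximalIdeal_iff_nonunits]
    have h3 : (((⟨r, hrA⟩ : A) - a₀ : A) : Qb) = -((a₀ : Qb) - r) := by
      push_cast
      ring
    rw [h3, A.mem_nonunits_iff, Valuation.map_neg, ← A.mem_nonunits_iff]
    exact hxn

/-- uniqueness of the root in the residue class of a simple root. -/
theorem root_unique_of_simple (f : A[X]) (a₀ : A)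
    (h1 : f.derivative.eval a₀ ∉ maximalIdeal A) {a b : A} (ha : f.eval a = 0)
    (haa : a - a₀ ∈ maximalIdeal A) (hb : f.eval b = 0) (hba : b - a₀ ∈ maximalIdeal A) : b = a := by
  obtain ⟨g, hg⟩ := dvd_iff_isRoot.mpr (show f.IsRoot a from ha)
  -- `g(a₀)` is a unit
  have hder : f.derivative.eval a₀ = g.eval a₀ + (a₀ - a) * g.derivative.eval a₀ := by
    rw [hg, derivative_mul]
    simp
  have hga : g.eval a₀ ∉ maximalIdeal A := by
    intro hmem
    apply h1
    rw [hder]
    refine Ideal.add_mem _ hmem (Ideal.mul_mem_right _ _ ?_)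
    have : a₀ - a = -(a - a₀) := by ring
    rw [this]
    exact neg_mem haa
  have hgb : g.eval b ∉ maximalIdeal A := by
    intro hmem
    apply hga
    obtain ⟨c, hc⟩ := Polynomial.sub_dvd_eval_sub b a₀ g
    have : g.eval a₀ = g.eval b - (b - a₀) * c := by rw [← hc]; ring
    rw [this]
    exact Ideal.sub_mem _ hmem (Ideal.mul_mem_right _ _ hba)
  have hgb0 : g.eval b ≠ 0 := fun h0 => hgb (h0 ▸ Ideal.zero_mem _)
  have h2 : (b - a) * g.eval b = 0 := by
    have := hb
    rw [hg] at this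
    simpa using this
  rcases mul_eq_zero.mp h2 with h | h
  · exact sub_eq_zero.mp h
  · exact absurd h hgb0

/-- **Hensel's lemma in `ℚ̄` with a group of isometries.** -/
theorem exists_fixed_root_of_simple (H : Subgroup GQ) (hH : H ≤ A.decompositionSubgroup ℚ)
    (f : A[X]) (hf : f.Monic)
    (hfH : ∀ σ ∈ H, ∀ i : ℕ, σ ((f.coeff i : A) : Qb) = ((f.coeff i : A) : Qb))
    (a₀ : A) (ha₀H : ∀ σ ∈ H, σ (a₀ : Qb) - (a₀ : Qb) ∈ A.nonunits)
    (h0 : f.eval a₀ ∈ maximalIdeal A) (h1 : f.derivative.eval a₀ ∉ maximalIdeal A) :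
    ∃ a : A, f.eval a = 0 ∧ a - a₀ ∈ maximalIdeal A ∧ (∀ σ ∈ H, σ (a : Qb) = (a : Qb)) ∧
      ∀ b : A, f.eval b = 0 → b - a₀ ∈ maximalIdeal A → b = a := by
  obtain ⟨a, ha, haa⟩ := exists_root_sub_mem A f hf a₀ h0
  refine ⟨a, ha, haa, ?_, fun b hb hba => root_unique_of_simple A f a₀ h1 ha haa hb hba⟩
  intro σ hσ
  have hσD := hH hσ
  have hσa : σ (a : Qb) ∈ A := (apply_mem_iff hσD _).mpr a.2
  set F : Qb[X] := f.map (algebraMap A Qb) with hF
  have hFσ : F.map (σ : Qb →+* Qb) = F := by
    ext i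
    rw [coeff_map, hF, coeff_map]
    exact hfH σ hσ i
  have hFa : F.eval (a : Qb) = 0 := by
    rw [hF, eval_map_coe, ha]
    rfl
  have hFσa : F.eval (σ (a : Qb)) = 0 := by
    have h2 : (σ : Qb →+* Qb) (F.eval (a : Qb)) = (F.map (σ : Qb →+* Qb)).eval (σ (a : Qb)) :=
      (Polynomial.eval_map_apply (σ : Qb →+* Qb) (a : Qb)).symm
    rw [hFσ, hFa, map_zero] at h2
    exact h2.symm
  have hb : f.eval (⟨σ (a : Qb), hσa⟩ : A) = 0 := by
    apply Subtype.ext
    have h2 : F.eval ((⟨σ (a : Qb), hσa⟩ : A) : Qb) =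
        ((f.eval (⟨σ (a : Qb), hσa⟩ : A) : A) : Qb) := eval_map_coe A f _
    rw [← h2]
    exact hFσa
  have hba : (⟨σ (a : Qb), hσa⟩ : A) - a₀ ∈ maximalIdeal A := by
    rw [mem_maximalIdeal_iff_nonunits]
    have h3 : (((⟨σ (a : Qb), hσa⟩ : A) - a₀ : A) : Qb) =
        σ ((a : Qb) - (a₀ : Qb)) + (σ (a₀ : Qb) - (a₀ : Qb)) := by
      push_cast
      rw [map_sub]
      ring
    rw [h3, A.mem_nonunits_iff]
    refine lt_of_le_of_lt (Valuation.map_add _ _ _) (max_lt ?_ ?_)
    · rw [← A.mem_nonunits_iff, apply_mem_nonunits_iff hσD]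
      have := (mem_maximalIdeal_iff_nonunits A _).mp haa
      simpa using this
    · exact (A.mem_nonunits_iff).mp (ha₀H σ hσ)
  have := root_unique_of_simple A f a₀ h1 ha haa hb hba
  exact congrArg Subtype.val this

/-! ### `O = A ∩ ℚ̄^{D_A ∩ N}` is henselian -/

variable (N : Subgroup GQ)

/-- the inclusion `O → A`. -/
noncomputable def toA : locRing A N →+* A where
  toFun x := ⟨toQb A N x, toQb_mem A N x⟩
  map_one' := rfl
  map_mul' _ _ := rfl
  map_zero' := rfl
  map_add' _ _ := rfl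

theorem coe_toA (x : locRing A N) : ((toA A N x : A) : Qb) = toQb A N x := rfl

theorem toA_injective : Function.Injective (toA A N) := fun x y h =>
  toQb_injective A N (by
    have := congrArg (fun z : A => (z : Qb)) h
    exact this)

theorem toA_mem_maximalIdeal_iff (x : locRing A N) :
    toA A N x ∈ maximalIdeal A ↔ x ∈ maximalIdeal (locRing A N) := by
  rw [mem_maximalIdeal_iff_nonunits, coe_toA, mem_maximalIdeal, mem_nonunits_iff,
    ComapDVR.isUnit_sub_iff, A.mem_nonunits_iff]
  have h1 : A.valuation (toQb A N x) ≤ 1 := (A.valuation_le_one_iff _).mpr x.2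
  constructor
  · intro h
    exact h.ne
  · intro h
    exact lt_of_le_of_ne h1 h

/-- **`O` is a henselian local ring.** -/
instance henselianLocalRing_locRing : HenselianLocalRing (locRing A N) where
  is_henselian f hf a₀ h0 h1 := by
    have h0' : (f.map (toA A N)).eval (toA A N a₀) ∈ maximalIdeal A := by
      rw [Polynomial.eval_map_apply, toA_mem_maximalIdeal_iff]
      exact h0
    have h1' : (f.map (toA A N)).derivative.eval (toA A N a₀) ∉ maximalIdeal A := by
      rw [derivative_map, Polynomial.eval_map_apply, toA_mem_maximalIdeal_iff]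
      intro hmem
      exact (mem_maximalIdeal _).mp hmem h1
    obtain ⟨a, ha, haa, hfix, -⟩ := exists_fixed_root_of_simple A
      (A.decompositionSubgroup ℚ ⊓ N) inf_le_left (f.map (toA A N)) (hf.map _)
      (fun σ hσ i => by
        rw [coeff_map, coe_toA]
        exact (mem_locField_iff A N _).mp ((f.coeff i : locRing A N) : locField A N).2 σ hσ.1 hσ.2)
      (toA A N a₀)
      (fun σ hσ => by
        rw [coe_toA, (mem_locField_iff A N _).mp (a₀ : locField A N).2 σ hσ.1 hσ.2, sub_self]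
        rw [A.mem_nonunits_iff, map_zero]
        exact zero_lt_one)
      h0' h1'
    have haL : (a : Qb) ∈ locField A N := by
      rw [mem_locField_iff]
      intro σ hσ1 hσ2
      exact hfix σ ⟨hσ1, hσ2⟩
    let a' : locRing A N := ⟨⟨(a : Qb), haL⟩, a.2⟩
    have ha' : toA A N a' = a := Subtype.ext rfl
    refine ⟨a', ?_, ?_⟩
    · apply toA_injective A N
      rw [map_zero, ← ha]
      rw [← ha', Polynomial.eval_map_apply]
    · rw [← toA_mem_maximalIdeal_iff, map_sub, ha']
      exact haa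

end Fermat.Agent.GP.Flat.DvrInst
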