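/-
GATE-P / S56 [P-FLAT](iv), node S56-FLAT-DVRINST part 7 (helper26).
**The henselian `ℚ̄`-instance of helper5's abstract DVR setting, packaged.**
`O = A ∩ ℚ̄^{D_A ∩ N}`, `G = I_A N / N`, `O₀ = O^G`:
* `hres` : every residue class of `O` has a representative in `O₀` (helper42's `ResFixed`);
* `ad_mul_le_model` : `PmRoot.ad_mul_le_of_pm` instantiated: the stabiliser form of `(P_m)`
  gives `(p - 1) (A + ∑_{σ ≠ 1} a σ) ≤ p |G|`.
-/
import Mathlib
import Fermat.Agent.GP.Flat.DvrInst.RootBridge
import Fermat.Agent.GP.Flat.DvrInst.ResFixed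

set_option autoImplicit false

open scoped Pointwise
open Polynomial IsLocalRing
open Fermat.Agent.Common_helper32 Fermat.Agent.S13.Global Fermat.Agent.GL.Local.InertiaField
  Fermat.Agent.GL.Local

namespace Fermat.Agent.GP.Flat.DvrInst

variable (A : ValuationSubring Qb) (N : Subgroup GQ) [hN : N.Normal]
variable {p : ℕ} (hp : p.Prime) (hA : (p : Qb) ∈ A.nonunits)

/-- `G` acts trivially on the residue field of `O`. -/
theorem smul_sub_mem_maximalIdeal (g : inertiaQuot A N) (x : locRing A N) :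
    g • x - x ∈ maximalIdeal (locRing A N) := by
  rw [mem_maximalIdeal_locRing_iff]
  exact smul_sub_mem_nonunits A N g x

include hp hA in
/-- binder `hres` of `Converse` / `PmBound`: `O₀ → O / 𝔪` is surjective (`f(L/L^G) = 1`). -/
theorem hres (hopen : IsOpen (N : Set GQ)) (x : locRing A N) :
    ∃ y ∈ baseSubring A N, x - y ∈ maximalIdeal (locRing A N) := by
  have h1 : Finite (ResidueField (locRing A N)) := finite_residueField A N hp hA hopen
  have h2 : Finite (inertiaQuot A N) := finite_inertiaQuot A N hopen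
  obtain ⟨y, hy, hxy⟩ := ResFixed.exists_fixed_sub_mem (R := locRing A N)
    (G := inertiaQuot A N) (smul_sub_mem_maximalIdeal A N) x
  exact ⟨y, hy, hxy⟩

/-- `p` as an element of `O₀`. -/
noncomputable def pBase (p : ℕ) : baseSubring A N := (p : baseSubring A N)

theorem coe_pBase (p : ℕ) : ((pBase A N p : baseSubring A N) : locRing A N) = (p : locRing A N) := by
  simp [pBase]

include hp hA in
/-- **The ramification bound in the model.**  `π` a uniformiser of `O` with `p = ε₀ π^{|G|}`,
`σ π - π = t_σ π^{a_σ}`, `A' = max a ≥ 2`; `hPm` = the stabiliser form of Fontaine's `(P_m)`. -/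
theorem ad_mul_le_model (hopen : IsOpen (N : Set GQ)) [Fintype (inertiaQuot A N)]
    [DecidableEq (inertiaQuot A N)]
    (π : locRing A N) (hπ : Irreducible π) (hπ1 : toQb A N π ∈ A.nonunits)
    (hπe : A.valuation (p : Qb) = A.valuation (toQb A N π) ^ Fintype.card (inertiaQuot A N))
    (ε₀ : (locRing A N)ˣ)
    (hε : ((p : ℕ) : locRing A N) = ε₀ * π ^ Fintype.card (inertiaQuot A N))
    (a : inertiaQuot A N → ℕ) (t : inertiaQuot A N → (locRing A N)ˣ)
    (ha : ∀ σ : inertiaQuot A N, σ ≠ 1 → σ • π - π = t σ * π ^ a σ)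
    (A' : ℕ) (hA2 : 2 ≤ A') (hAle : ∀ σ : inertiaQuot A N, σ ≠ 1 → a σ ≤ A')
    (hAex : ∃ σ : inertiaQuot A N, σ ≠ 1 ∧ a σ = A')
    (hPm : ∀ (q : (baseSubring A N)[X]) (β : Qb), q.Monic →
      q.natDegree = Fintype.card (inertiaQuot A N) →
      (q.map ((ιO A N).comp (baseSubring A N).subtype)).eval β = 0 →
      A.valuation β ^ Fintype.card (inertiaQuot A N) = A.valuation (p : Qb) →
      A.valuation (((PmBound.orbitPoly₀ (baseSubring A N) (hinv A N) π).map
        ((ιO A N).comp (baseSubring A N).subtype)).eval β) ^ (p - 1) < A.valuation (p : Qb) ^ p →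
      ∀ σ : GQ, σ ∈ A.decompositionSubgroup ℚ →
        (∀ t : locRing A N, t ∈ baseSubring A N → σ (toQb A N t) = toQb A N t) →
        σ β = β → σ ∈ N) :
    (p - 1) * (A' + ∑ σ ∈ Finset.univ.erase (1 : inertiaQuot A N), a σ) ≤
      p * Fintype.card (inertiaQuot A N) := by
  have hdvr : IsDiscreteValuationRing (locRing A N) :=
    isDiscreteValuationRing_locRing A N hp hA hopen
  have hfinres : Finite (ResidueField (locRing A N)) := finite_residueField A N hp hA hopen
  have hvp1 : A.valuation (p : Qb) < 1 := (A.mem_nonunits_iff).mp hA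
  exact PmRoot.ad_mul_le_of_pm (v := A.valuation) (ι := ιO A N) (baseSubring A N) (hinv A N)
    (hfix A N) (hres A N hp hA hopen) (ιO_injective A N)
    (fun x => (A.valuation_le_one_iff _).mpr (toQb_mem A N x)) π hπ
    ((A.mem_nonunits_iff).mp hπ1) p hπe (pBase A N p) ε₀
    (by rw [coe_pBase]; exact hε) a t ha A' hA2 hAle hAex
    (hPmO_of_stab A N hopen π p hvp1 hPm)

end Fermat.Agent.GP.Flat.DvrInst
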