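/-
GATE-P / S56 [P-FLAT](iv), node S56-FLAT-DVRINST part 9 (helper26).
Adapter from the monogenic `(P_m)` (`fixes_points`, board 4059) to the hypothesis `hPm` of
`DvrInst.ad_mul_le_model`:
* `orbitPolyQb` : the minimal polynomial `P` of `Π = toQb π` over `Wb = baseQb`, as a polynomial over `ℚ̄`,
  with the facts `fixes_points` asks for (monic, degree `|G|`, coefficients in `Wb`, `P(Π) = 0`);
* `hPm_of_fixes` : if the point values `S ⊆ toQb(O)` cut out `N` and `(P_m)` holds for `(Wb, Π, P)`,
  then `hPm` holds.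
-/
import Mathlib
import Fermat.Agent.GP.Flat.DvrInst.Gen

set_option autoImplicit false

open scoped Pointwise
open Polynomial
open Fermat.Agent.Common_helper32 Fermat.Agent.S13.Global Fermat.Agent.GL.Local.InertiaField
  Fermat.Agent.GL.Local

namespace Fermat.Agent.GP.Flat.DvrInst

variable (A : ValuationSubring Qb) (N : Subgroup GQ) [hN : N.Normal]
variable [Fintype (inertiaQuot A N)]

/-- the minimal polynomial of `toQb π` over `O₀`, as a polynomial over `ℚ̄`. -/
noncomputable def orbitPolyQb (π : locRing A N) : Qb[X] :=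
  (PmBound.orbitPoly₀ (baseSubring A N) (hinv A N) π).map
    ((ιO A N).comp (baseSubring A N).subtype)

theorem orbitPolyQb_monic (π : locRing A N) : (orbitPolyQb A N π).Monic :=
  (PmBound.orbitPoly₀_monic (baseSubring A N) (hinv A N) π).map _

theorem orbitPolyQb_natDegree (π : locRing A N) :
    (orbitPolyQb A N π).natDegree = Fintype.card (inertiaQuot A N) := by
  unfold orbitPolyQb
  rw [(PmBound.orbitPoly₀_monic (baseSubring A N) (hinv A N) π).natDegree_map,
    PmBound.orbitPoly₀_natDegree]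

theorem orbitPolyQb_coeff_mem (π : locRing A N) (i : ℕ) :
    (orbitPolyQb A N π).coeff i ∈ baseQb A N := by
  unfold orbitPolyQb
  rw [coeff_map]
  exact (mem_baseQb_iff A N _).mpr
    ⟨_, ((PmBound.orbitPoly₀ (baseSubring A N) (hinv A N) π).coeff i).2, rfl⟩

theorem orbitPolyQb_eval (π : locRing A N) (β : Qb) :
    (orbitPolyQb A N π).eval β = ∏ σ : inertiaQuot A N, (β - toQb A N (σ • π)) := by
  unfold orbitPolyQb
  rw [← Polynomial.map_map, PmBound.map_orbitPoly₀]
  unfold PmBound.orbitPolyO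
  rw [Polynomial.map_prod, eval_prod]
  refine Finset.prod_congr rfl fun σ _ => ?_
  simp [ιO_apply]

theorem orbitPolyQb_eval_self (π : locRing A N) : (orbitPolyQb A N π).eval (toQb A N π) = 0 := by
  rw [orbitPolyQb_eval]
  apply Finset.prod_eq_zero (Finset.mem_univ (1 : inertiaQuot A N))
  rw [one_smul, sub_self]

/-- **`hPm` from the monogenic `(P_m)`.**  `S` = the set of values of the points; `hS_N`: an
automorphism fixing `S` pointwise lies in `N`; `hfp` = the conclusion of `fixes_points` (4059) for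
`Wb := baseQb A N`, `Pi := toQb π`, `P := orbitPolyQb A N π`, `e := |G|`. -/
theorem hPm_of_fixes (π : locRing A N) (p : ℕ) (S : Set Qb)
    (hS_N : ∀ σ : GQ, (∀ y ∈ S, σ y = y) → σ ∈ N)
    (hfp : ∀ β : Qb, A.valuation β ^ Fintype.card (inertiaQuot A N) = A.valuation (p : Qb) →
      A.valuation ((orbitPolyQb A N π).eval β) ^ (p - 1) < A.valuation (p : Qb) ^ p →
      ∀ σ : GQ, (∀ x : Qb, σ x ∈ A ↔ x ∈ A) → (∀ t ∈ baseQb A N, σ t = t) → σ β = β →
        ∀ y ∈ S, σ y = y) :
    ∀ (q : (baseSubring A N)[X]) (β : Qb), q.Monic →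
      q.natDegree = Fintype.card (inertiaQuot A N) →
      (q.map ((ιO A N).comp (baseSubring A N).subtype)).eval β = 0 →
      A.valuation β ^ Fintype.card (inertiaQuot A N) = A.valuation (p : Qb) →
      A.valuation (((PmBound.orbitPoly₀ (baseSubring A N) (hinv A N) π).map
        ((ιO A N).comp (baseSubring A N).subtype)).eval β) ^ (p - 1) < A.valuation (p : Qb) ^ p →
      ∀ σ : GQ, σ ∈ A.decompositionSubgroup ℚ →
        (∀ t : locRing A N, t ∈ baseSubring A N → σ (toQb A N t) = toQb A N t) →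
        σ β = β → σ ∈ N := by
  intro q β _ _ _ hvβ hprec σ hσD hσW hσβ
  apply hS_N σ
  refine hfp β hvβ hprec σ ((mem_decomp_iff A σ).mp hσD) ?_ hσβ
  intro t ht
  obtain ⟨t', ht', rfl⟩ := (mem_baseQb_iff A N t).mp ht
  exact hσW t' ht'

end Fermat.Agent.GP.Flat.DvrInst
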