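/-
GATE-P (S56 long shot) / [P-FLAT] (iv) DVRINST, abstract `hres` lemma (helper42, 2nd seat to
helper26): a finite group `G` acting on a local ring `R` with FINITE residue field, trivially on the
residue field, has a `G`-FIXED representative in every residue class.

Proof: `|G| = p ^ a * m'`, `f = ∏_g (X - g • x)` has `G`-fixed coefficients and reduces to
`(X ^ (p ^ a) - x̄ ^ (p ^ a)) ^ m'`; its coefficient of `X ^ (p ^ a (m' - 1))` is `- m' x̄ ^ (p ^ a)`,
`m'` is invertible in the (finite) image `κ₀` of `R ^ G`, and `x̄ = (x̄ ^ (p ^ a)) ^ (p ^ (a (f - 1)))`.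
Mathlib only.
-/
import Mathlib

set_option autoImplicit false

namespace Fermat.Agent.GP.Flat.DvrInst.ResFixed

open IsLocalRing Polynomial

variable {R : Type*} [CommRing R] {G : Type*} [Group G] [MulSemiringAction G R]

/-- The subring of `G`-fixed elements. -/
def fixedSub (R : Type*) [CommRing R] (G : Type*) [Group G] [MulSemiringAction G R] :
    Subring R where
  carrier := {y | ∀ g : G, g • y = y}
  mul_mem' {a b} ha hb g := by rw [smul_mul', ha g, hb g]
  one_mem' g := smul_one g
  add_mem' {a b} ha hb g := by rw [smul_add, ha g, hb g]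
  zero_mem' g := smul_zero g
  neg_mem' {a} ha g := by rw [smul_neg, ha g]

theorem mem_fixedSub_iff (y : R) : y ∈ fixedSub R G ↔ ∀ g : G, g • y = y := Iff.rfl

section Poly

variable [Fintype G]

/-- The orbit polynomial `∏_g (X - g • x)`. -/
noncomputable def orbPoly (G : Type*) [Group G] [Fintype G] {R : Type*} [CommRing R]
    [MulSemiringAction G R] (x : R) : R[X] := ∏ g : G, (X - C (g • x))

theorem orbPoly_map_smul (x : R) (h : G) :
    (orbPoly G x).map (MulSemiringAction.toRingHom G R h) = orbPoly G x := by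
  rw [orbPoly, Polynomial.map_prod]
  refine Fintype.prod_equiv (Equiv.mulLeft h) _ _ (fun g => ?_)
  rw [Polynomial.map_sub, map_X, map_C, Equiv.coe_mulLeft, MulSemiringAction.toRingHom_apply,
    mul_smul]

theorem orbPoly_coeff_mem (x : R) (k : ℕ) : (orbPoly G x).coeff k ∈ fixedSub R G := by
  intro h
  have := congrArg (fun q : R[X] => q.coeff k) (orbPoly_map_smul x h)
  simpa [coeff_map] using this

end Poly

section Main

variable [IsLocalRing R] [Finite (ResidueField R)] [Finite G]

/-- **Abstract `hres`.** -/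
theorem exists_fixed_sub_mem (htriv : ∀ (g : G) (x : R), g • x - x ∈ maximalIdeal R) (x : R) :
    ∃ y : R, (∀ g : G, g • y = y) ∧ x - y ∈ maximalIdeal R := by
  classical
  have : Fintype G := Fintype.ofFinite G
  have : Fintype (ResidueField R) := Fintype.ofFinite _
  -- characteristic
  obtain ⟨p, hchar⟩ := CharP.exists (ResidueField R)
  have hpprime : p.Prime := by
    rcases CharP.char_is_prime_or_zero (ResidueField R) p with h | h
    · exact h
    · exfalso
      subst h
      have : CharZero (ResidueField R) := CharP.charP_to_charZero _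
      exact not_finite (ResidueField R)
  have : Fact p.Prime := ⟨hpprime⟩
  obtain ⟨f, hf⟩ := FiniteField.card (ResidueField R) p
  -- |G| = p ^ a * m'
  obtain ⟨a, m', hm', hcard⟩ := Nat.exists_eq_pow_mul_and_not_dvd
    (Fintype.card_ne_zero (α := G)) p hpprime.ne_one
  have hm'pos : 0 < m' := by
    rcases Nat.eq_zero_or_pos m' with h | h
    · exact absurd (h ▸ dvd_zero p) hm'
    · exact h
  -- the image of the fixed ring
  set κ₀ : Subring (ResidueField R) := (fixedSub R G).map (residue R) with hκ₀
  set xb := residue R x with hxb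
  -- reduction of the orbit polynomial
  have hred : (orbPoly G x).map (residue R) = (X - C xb) ^ Fintype.card G := by
    rw [orbPoly, Polynomial.map_prod]
    rw [Finset.prod_congr rfl (g := fun _ => (X - C xb : (ResidueField R)[X]))]
    · rw [Finset.prod_const, Finset.card_univ]
    · intro g _
      rw [Polynomial.map_sub, map_X, map_C]
      congr 2
      rw [hxb, ← sub_eq_zero, ← map_sub, residue_eq_zero_iff]
      exact htriv g x
  have hfrob : (X - C xb : (ResidueField R)[X]) ^ Fintype.card G =
      expand (ResidueField R) (p ^ a) ((X + C (-(xb ^ p ^ a))) ^ m') := by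
    rw [hcard, pow_mul, sub_pow_char_pow, ← C_pow, map_pow (expand (ResidueField R) (p ^ a)),
      map_add (expand (ResidueField R) (p ^ a)), expand_X, expand_C, C_neg, sub_eq_add_neg]
  -- the key coefficient
  have hcoeff : ((orbPoly G x).map (residue R)).coeff ((m' - 1) * p ^ a) =
      -(xb ^ p ^ a) * (m' : ResidueField R) := by
    rw [hred, hfrob, coeff_expand_mul (pow_pos hpprime.pos a), coeff_X_add_C_pow]
    have h1 : m' - (m' - 1) = 1 := by omega
    have h2 : m'.choose (m' - 1) = m' := by
      obtain ⟨n, rfl⟩ : ∃ n, m' = n + 1 := ⟨m' - 1, by omega⟩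
      rw [Nat.add_sub_cancel, Nat.choose_succ_self_right]
    rw [h1, pow_one, h2]
  have hmem1 : -(xb ^ p ^ a) * (m' : ResidueField R) ∈ κ₀ := by
    rw [← hcoeff, coeff_map]
    exact Subring.mem_map.mpr ⟨_, orbPoly_coeff_mem x _, rfl⟩
  -- `m'` is invertible in `κ₀`
  have hm'ne : (m' : ResidueField R) ≠ 0 := by
    intro h
    exact hm' ((CharP.cast_eq_zero_iff (ResidueField R) p m').mp h)
  have hm'inv : ((m' : ResidueField R))⁻¹ ∈ κ₀ := by
    have hpow : (m' : ResidueField R) ^ (Fintype.card (ResidueField R) - 1) = 1 :=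
      FiniteField.pow_card_sub_one_eq_one _ hm'ne
    have h2 : 2 ≤ Fintype.card (ResidueField R) := Fintype.one_lt_card
    have hinv : ((m' : ResidueField R))⁻¹ =
        (m' : ResidueField R) ^ (Fintype.card (ResidueField R) - 2) := by
      apply inv_eq_of_mul_eq_one_right
      rw [← pow_succ']
      have : Fintype.card (ResidueField R) - 2 + 1 = Fintype.card (ResidueField R) - 1 := by omega
      rw [this, hpow]
    rw [hinv]
    exact Subring.pow_mem _ (natCast_mem _ m') _
  have hmem2 : xb ^ p ^ a ∈ κ₀ := by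
    have h := Subring.neg_mem _ (Subring.mul_mem _ hmem1 hm'inv)
    have e : -(-(xb ^ p ^ a) * (m' : ResidueField R) * ((m' : ResidueField R))⁻¹) = xb ^ p ^ a := by
      rw [neg_mul, neg_mul, neg_neg, mul_assoc, mul_inv_cancel₀ hm'ne, mul_one]
    rwa [e] at h
  -- `x̄` is a power of `x̄ ^ (p ^ a)`
  have hmem3 : xb ∈ κ₀ := by
    have h1 : xb ^ Fintype.card (ResidueField R) ^ a = xb := FiniteField.pow_card_pow a xb
    have hf1 : 1 ≤ (f : ℕ) := f.pos
    have h2 : Fintype.card (ResidueField R) ^ a = p ^ a * p ^ (a * ((f : ℕ) - 1)) := by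
      rw [hf.2, ← pow_mul, ← pow_add]
      congr 1
      obtain ⟨f', hf'⟩ : ∃ f', (f : ℕ) = f' + 1 := ⟨(f : ℕ) - 1, by omega⟩
      rw [hf', Nat.add_sub_cancel]
      ring
    rw [h2, pow_mul] at h1
    rw [← h1]
    exact Subring.pow_mem _ hmem2 _
  obtain ⟨y, hy, hyx⟩ := hmem3
  refine ⟨y, hy, ?_⟩
  rw [← residue_eq_zero_iff, map_sub, hyx, sub_self]

/-- Subring form. -/
theorem exists_mem_fixedSub_sub_mem (htriv : ∀ (g : G) (x : R), g • x - x ∈ maximalIdeal R)
    (x : R) : ∃ y ∈ fixedSub R G, x - y ∈ maximalIdeal R := by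
  obtain ⟨y, hy, hxy⟩ := exists_fixed_sub_mem htriv x
  exact ⟨y, hy, hxy⟩

end Main

end Fermat.Agent.GP.Flat.DvrInst.ResFixed
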