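/-
GATE-P / S56 [P-FLAT](iv), node S56-FLAT-DVRINST part 11 (helper26).
Dictionary between subgroups `Γ ≤ G_ℚ` and subgroups of the inertia quotient `G = I_A N / N`:
`imG Γ` = image of `I_A ∩ Γ`; its fixed elements in `L`; `|G| = [I_A : I_A ∩ Γ] · |imG Γ|` for `N ≤ Γ`.
(For the Kummer data of `KummerCorFinal` / `KummerCorTop`: `N_K := imG (fixer of K)`.)
-/
import Mathlib
import Fermat.Agent.GP.Flat.DvrInst.LocField

set_option autoImplicit false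

open scoped Pointwise
open Fermat.Agent.Common_helper32 Fermat.Agent.GL.Local.InertiaField Fermat.Agent.GL.Local

namespace Fermat.Agent.GP.Flat.DvrInst

variable (A : ValuationSubring Qb) (N : Subgroup GQ) [hN : N.Normal]

/-- `|G| = [I_A : I_A ∩ N]`. -/
theorem card_inertiaQuot_eq_relIndex :
    Nat.card (inertiaQuot A N) = N.relIndex (A.inertiaSubgroupIn ℚ) := by
  have h := Subgroup.relIndex_ker (QuotientGroup.mk' N) (K := A.inertiaSubgroupIn ℚ)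
  rw [QuotientGroup.ker_mk'] at h
  rw [h]
  rfl

/-- the image in `G` of `I_A ∩ Γ`. -/
noncomputable def imG (Γ : Subgroup GQ) : Subgroup (inertiaQuot A N) :=
  ((A.inertiaSubgroupIn ℚ ⊓ Γ).map (QuotientGroup.mk' N)).subgroupOf (inertiaQuot A N)

theorem mem_imG_iff (Γ : Subgroup GQ) (g : inertiaQuot A N) :
    g ∈ imG A N Γ ↔ ∃ σ : GQ, σ ∈ A.inertiaSubgroupIn ℚ ∧ σ ∈ Γ ∧ QuotientGroup.mk' N σ = g.1 := by
  unfold imG
  rw [Subgroup.mem_subgroupOf, Subgroup.mem_map]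
  constructor
  · rintro ⟨σ, ⟨h1, h2⟩, h3⟩
    exact ⟨σ, h1, h2, h3⟩
  · rintro ⟨σ, h1, h2, h3⟩
    exact ⟨σ, ⟨h1, h2⟩, h3⟩

theorem mkI_mem_imG {Γ : Subgroup GQ} {σ : GQ} (hσ : σ ∈ A.inertiaSubgroupIn ℚ) (hσΓ : σ ∈ Γ) :
    mkI A N σ hσ ∈ imG A N Γ :=
  (mem_imG_iff A N Γ _).mpr ⟨σ, hσ, hσΓ, rfl⟩

theorem imG_mono {Γ Γ' : Subgroup GQ} (h : Γ ≤ Γ') : imG A N Γ ≤ imG A N Γ' := by
  intro g hg
  obtain ⟨σ, h1, h2, h3⟩ := (mem_imG_iff A N Γ g).mp hg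
  exact (mem_imG_iff A N Γ' g).mpr ⟨σ, h1, h h2, h3⟩

/-- elements of `L` fixed by `I_A ∩ Γ` are fixed by `imG Γ`, and conversely. -/
theorem forall_mem_imG_smul_eq_iff (Γ : Subgroup GQ) (x : locField A N) :
    (∀ g ∈ imG A N Γ, g • x = x) ↔
      ∀ σ : GQ, σ ∈ A.inertiaSubgroupIn ℚ → σ ∈ Γ → σ (x : Qb) = (x : Qb) := by
  constructor
  · intro h σ hσ hσΓ
    have := h _ (mkI_mem_imG A N hσ hσΓ)
    rw [← coe_mkI_smul A N σ hσ x, this]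
  · intro h g hg
    obtain ⟨σ, h1, h2, h3⟩ := (mem_imG_iff A N Γ g).mp hg
    apply Subtype.ext
    rw [coe_smul A N (inertia_le_decomp h1) g h3 x]
    exact h σ h1 h2

/-- an element of `ℚ̄` fixed by `Γ ⊇ D_A ∩ N` lies in `L` and is fixed by `imG Γ`. -/
theorem exists_locField_of_fixed {Γ : Subgroup GQ} (hΓ : A.decompositionSubgroup ℚ ⊓ N ≤ Γ) {y : Qb}
    (hy : ∀ σ ∈ Γ, σ y = y) :
    ∃ x : locField A N, (x : Qb) = y ∧ ∀ g ∈ imG A N Γ, g • x = x := by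
  have hyL : y ∈ locField A N := by
    rw [mem_locField_iff]
    intro σ h1 h2
    exact hy σ (hΓ ⟨h1, h2⟩)
  refine ⟨⟨y, hyL⟩, rfl, ?_⟩
  rw [forall_mem_imG_smul_eq_iff]
  intro σ _ hσΓ
  exact hy σ hσΓ

/-- `|imG Γ| = [I_A ∩ Γ : I_A ∩ Γ ∩ N]`. -/
theorem card_imG (Γ : Subgroup GQ) :
    Nat.card (imG A N Γ) = N.relIndex (A.inertiaSubgroupIn ℚ ⊓ Γ) := by
  have hle : (A.inertiaSubgroupIn ℚ ⊓ Γ).map (QuotientGroup.mk' N) ≤ inertiaQuot A N :=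
    Subgroup.map_mono inf_le_left
  have h1 : Nat.card (imG A N Γ) =
      Nat.card ((A.inertiaSubgroupIn ℚ ⊓ Γ).map (QuotientGroup.mk' N)) :=
    Nat.card_congr (Subgroup.subgroupOfEquivOfLe hle).toEquiv
  have h := Subgroup.relIndex_ker (QuotientGroup.mk' N) (K := A.inertiaSubgroupIn ℚ ⊓ Γ)
  rw [QuotientGroup.ker_mk'] at h
  rw [h1, h]

/-- **`|G| = [I_A : I_A ∩ Γ] · |imG Γ|`** for `N ≤ Γ`. -/
theorem card_eq_relIndex_mul_card_imG {Γ : Subgroup GQ} (hNΓ : N ≤ Γ) :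
    Nat.card (inertiaQuot A N) =
      Γ.relIndex (A.inertiaSubgroupIn ℚ) * Nat.card (imG A N Γ) := by
  rw [card_inertiaQuot_eq_relIndex, card_imG]
  have h := Subgroup.relIndex_inf_mul_relIndex N Γ (A.inertiaSubgroupIn ℚ)
  rw [inf_eq_left.mpr hNΓ] at h
  rw [← h, mul_comm, inf_comm]

/-- **Two levels** `N ≤ N₁` (both normal, `N₁` open): a uniformiser `π₁` of `ℚ̄^{D_A ∩ N₁}`
(`v(π₁)^{|G₁|} = v(p)`) has value `v(π)^{|imG N₁|}`, `π` a uniformiser of `L = ℚ̄^{D_A ∩ N}`. -/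
theorem valuation_unif_of_le {N₁ : Subgroup GQ} [N₁.Normal] (hNN₁ : N ≤ N₁)
    (hopen₁ : IsOpen (N₁ : Set GQ)) {p : ℕ} {π π₁ : Qb}
    (hπ : A.valuation π ^ Nat.card (inertiaQuot A N) = A.valuation (p : Qb))
    (hπ₁ : A.valuation π₁ ^ Nat.card (inertiaQuot A N₁) = A.valuation (p : Qb)) :
    A.valuation π₁ = A.valuation π ^ Nat.card (imG A N N₁) := by
  have hfin : Finite (inertiaQuot A N₁) := finite_inertiaQuot A N₁ hopen₁
  have hcard : Nat.card (inertiaQuot A N₁) ≠ 0 := Nat.card_pos.ne'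
  have h1 := card_eq_relIndex_mul_card_imG A N hNN₁
  rw [← card_inertiaQuot_eq_relIndex A N₁] at h1
  rw [h1, pow_mul', ← hπ₁] at hπ
  exact (pow_left_inj₀ zero_le zero_le hcard).mp hπ.symm

end Fermat.Agent.GP.Flat.DvrInst
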